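import Fermat.Agent.LTG.Defs
import Fermat.Agent.LT.K.SurjB
import Fermat.Agent.DefCond.InertiaCyc
import Fermat.Agent.FrobeniusDensityNF

/-!
# LT (general case): quadratic twists of `ρ : Γℚ → GL₂(𝔽₃)`

`exists_twist` : a surjective `ρ` with cyclotomic determinant has a quadratic twist by the Jacobi
symbol modulo a squarefree `m` prime to `6` such that, at all primes `q ≥ 5`, inertia contains `-1`
only if it contains an element of order four. (helper47)
-/

set_option autoImplicit false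

open Matrix NumberField Pointwise IsDedekindDomain
open Fermat.Agent.FrobExists Fermat.Agent.FrobPlaceLift
open Fermat.Agent.LT.K

namespace Fermat.Agent.LTG

local notation "Γℚ" => (AlgebraicClosure ℚ ≃ₐ[ℚ] AlgebraicClosure ℚ)
local notation "ℚbar" => AlgebraicClosure ℚ

/-! ### signs -/

/-- the sign `±1` as a scalar matrix -/
def sgnM : ℤˣ →* G3 where
  toFun u := if u = 1 then 1 else -1
  map_one' := by simp
  map_mul' := by
    intro a b
    rcases Int.units_eq_one_or a with rfl | rfl <;> rcases Int.units_eq_one_or b with rfl | rfl <;>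
      simp

@[simp] theorem sgnM_one : sgnM 1 = 1 := map_one _

@[simp] theorem sgnM_neg_one : sgnM (-1) = -1 := by
  change (if (-1 : ℤˣ) = 1 then (1 : G3) else -1) = -1
  rw [if_neg (by decide)]

theorem sgnM_comm (u : ℤˣ) (g : G3) : sgnM u * g = g * sgnM u := by
  rcases Int.units_eq_one_or u with rfl | rfl <;> simp

theorem sgnM_mul_self (u : ℤˣ) : sgnM u * sgnM u = 1 := by
  rcases Int.units_eq_one_or u with rfl | rfl <;> simp

theorem det_sgnM (u : ℤˣ) : GeneralLinearGroup.det (sgnM u) = 1 := by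
  rcases Int.units_eq_one_or u with rfl | rfl
  · simp
  · rw [sgnM_neg_one, det_eq_one_iff]; decide

/-- The twist of `ρ` by a quadratic character. -/
noncomputable def twist (ρ : Γℚ →* G3) (χ : Γℚ →* ℤˣ) : Γℚ →* G3 where
  toFun σ := sgnM (χ σ) * ρ σ
  map_one' := by simp
  map_mul' := by
    intro σ τ
    rw [map_mul, map_mul, map_mul, mul_assoc, mul_assoc, ← mul_assoc (sgnM (χ τ)), sgnM_comm (χ τ),
      mul_assoc]

theorem twist_apply (ρ : Γℚ →* G3) (χ : Γℚ →* ℤˣ) (σ : Γℚ) :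
    twist ρ χ σ = sgnM (χ σ) * ρ σ := rfl

theorem twist_of_eq_one {ρ : Γℚ →* G3} {χ : Γℚ →* ℤˣ} {σ : Γℚ} (h : χ σ = 1) :
    twist ρ χ σ = ρ σ := by
  rw [twist_apply, h, sgnM_one, one_mul]

theorem twist_of_eq_neg_one {ρ : Γℚ →* G3} {χ : Γℚ →* ℤˣ} {σ : Γℚ} (h : χ σ = -1) :
    twist ρ χ σ = -ρ σ := by
  rw [twist_apply, h, sgnM_neg_one, neg_mul, one_mul]

theorem twist_twist (ρ : Γℚ →* G3) (χ : Γℚ →* ℤˣ) : twist (twist ρ χ) χ = ρ := by
  ext1 σ
  rw [twist_apply, twist_apply, ← mul_assoc, sgnM_mul_self, one_mul]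

theorem det_twist (ρ : Γℚ →* G3) (χ : Γℚ →* ℤˣ) (σ : Γℚ) :
    GeneralLinearGroup.det (twist ρ χ σ) = GeneralLinearGroup.det (ρ σ) := by
  rw [twist_apply, map_mul, det_sgnM, one_mul]

theorem twist_pow_four (ρ : Γℚ →* G3) (χ : Γℚ →* ℤˣ) (σ : Γℚ) :
    (twist ρ χ σ) ^ 4 = (ρ σ) ^ 4 := by
  rcases Int.units_eq_one_or (χ σ) with h | h
  · rw [twist_of_eq_one h]
  · rw [twist_of_eq_neg_one h, neg_pow, Even.neg_one_pow (by decide), one_mul]

theorem trQ_neg (g : G3) : trQ (-g) = -trQ g := by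
  unfold trQ
  have h1 : (1 : G3) ≠ -1 := by
    intro h
    have := congrArg (fun g : G3 => g 0 0) h
    exact absurd this (by decide)
  by_cases hg : g = 1
  · subst hg
    rw [if_neg (fun h => h1 h.symm), if_pos rfl, if_pos rfl]
  · by_cases hg' : g = -1
    · subst hg'
      rw [neg_neg, if_pos rfl, if_neg hg, if_pos rfl, neg_neg]
    · rw [if_neg (fun h => hg' (by rw [← h, neg_neg])), if_neg (fun h => hg (neg_injective h)),
        if_neg hg, if_neg hg', neg_zero]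

theorem trQ_twist (ρ : Γℚ →* G3) (χ : Γℚ →* ℤˣ) (σ : Γℚ) :
    trQ (twist ρ χ σ) = ((χ σ : ℤˣ) : ℤ) * trQ (ρ σ) := by
  rcases Int.units_eq_one_or (χ σ) with h | h
  · rw [twist_of_eq_one h, h, Units.val_one, one_mul]
  · rw [twist_of_eq_neg_one h, h, trQ_neg, Units.val_neg, Units.val_one, neg_one_mul]

/-- twisting back -/
theorem trQ_eq_mul_twist (ρ : Γℚ →* G3) (χ : Γℚ →* ℤˣ) (σ : Γℚ) :
    trQ (ρ σ) = ((χ σ : ℤˣ) : ℤ) * trQ (twist ρ χ σ) := by
  rw [trQ_twist, ← mul_assoc, ← Units.val_mul, ← sq, Int.units_sq, Units.val_one, one_mul]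

theorem continuous_twist {ρ : Γℚ →* G3} {χ : Γℚ →* ℤˣ} (hρ : Continuous ρ)
    (hχ : Continuous χ) : Continuous (twist ρ χ) := by
  have h1 : Continuous fun σ => (χ σ, ρ σ) := hχ.prodMk hρ
  have h2 : Continuous fun p : ℤˣ × G3 => sgnM p.1 * p.2 := continuous_of_discreteTopology
  exact h2.comp h1

/-- Twisting does not change surjectivity. -/
theorem surjective_twist {ρ : Γℚ →* G3} (χ : Γℚ →* ℤˣ) (hρ : Function.Surjective ρ) :
    Function.Surjective (twist ρ χ) := by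
  -- `-1` is a commutator
  obtain ⟨σ, hσ⟩ := hρ (mk4 0 1 (-1) 0 (by decide))
  obtain ⟨τ, hτ⟩ := hρ (mk4 1 1 1 (-1) (by decide))
  have hc : twist ρ χ (σ * τ * σ⁻¹ * τ⁻¹) = -1 := by
    have h1 : χ (σ * τ * σ⁻¹ * τ⁻¹) = 1 := by
      rw [map_mul, map_mul, map_mul, map_inv, map_inv, mul_comm (χ σ), mul_assoc (χ τ),
        mul_inv_cancel, mul_one, mul_inv_cancel]
    rw [twist_of_eq_one h1, map_mul, map_mul, map_mul, map_inv, map_inv, hσ, hτ]
    rw [mul_inv_eq_iff_eq_mul, mul_inv_eq_iff_eq_mul]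
    refine G3.ext' ?_ ?_ ?_ ?_ <;> simp <;> decide
  intro g
  obtain ⟨s, hs⟩ := hρ g
  rcases Int.units_eq_one_or (χ s) with h | h
  · exact ⟨s, by rw [twist_of_eq_one h, hs]⟩
  · refine ⟨σ * τ * σ⁻¹ * τ⁻¹ * s, ?_⟩
    rw [map_mul, hc, twist_of_eq_neg_one h, hs, neg_mul_neg, one_mul]

/-! ### ramification of continuous representations with finite image -/

section ram

variable {G : Type*} [Group G] [TopologicalSpace G] [DiscreteTopology G]

/-- A continuous homomorphism to a discrete group is unramified outside a finite set. -/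
theorem exists_finset_unram (ρ : Γℚ →* G) (hcont : Continuous ρ) : ∃ B : Finset ℕ,
    ∀ q : ℕ, q.Prime → q ∉ B → ∀ A : ValuationSubring ℚbar, A.LiesOverPrime q →
      ∀ σ ∈ A.inertiaSubgroupIn ℚ, ρ σ = 1 := by
  have hopen : IsOpen ((ρ.ker : Subgroup Γℚ) : Set Γℚ) := (isOpen_discrete {(1 : G)}).preimage hcont
  have hclosed : IsClosed ((ρ.ker : Subgroup Γℚ) : Set Γℚ) := Subgroup.isClosed_of_isOpen _ hopen
  let F : IntermediateField ℚ ℚbar := IntermediateField.fixedField ρ.ker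
  have hfix : F.fixingSubgroup = ρ.ker := InfiniteGalois.fixingSubgroup_fixedField ⟨ρ.ker, hclosed⟩
  have hfin : FiniteDimensional ℚ F := by
    rw [← InfiniteGalois.isOpen_iff_finite, hfix]; exact hopen
  have hgal : IsGalois ℚ F := by
    have h : @IsGalois ℚ _ F _ (IntermediateField.algebra' _) := by
      rw [← InfiniteGalois.normal_iff_isGalois, hfix]
      infer_instance
    convert! h
  have hNF : NumberField F := ⟨⟩
  obtain ⟨B, -, hB⟩ := FrobDensity.exists_bad F ∅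
  refine ⟨B, fun q hq hqB A hA σ hσ => ?_⟩
  have hover := (centerOn_liesOver F A hq hA).over
  have hbot : centerOn F A ≠ ⊥ := by
    intro h
    rw [h, Ideal.under_bot, Ideal.span_singleton_eq_bot] at hover
    exact hq.ne_zero (by exact_mod_cast hover)
  let P : HeightOneSpectrum (𝓞 F) := ⟨centerOn F A, inferInstance, hbot⟩
  have hP : DedekindEuler.below P ∉ B := by
    have h1 : DedekindEuler.below P = q := by
      rw [DedekindEuler.below_eq_iff P hq]
      have h2 : ((q : ℕ) : ℤ) ∈ (centerOn F A).under ℤ := by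
        rw [← hover]; exact Ideal.mem_span_singleton_self _
      rw [Ideal.under_def, Ideal.mem_comap, map_natCast] at h2
      exact h2
    rw [h1]; exact hqB
  have h1 := hB P hP _ (restrict_mem_inertia F hσ)
  have h2 : ∀ x ∈ F, σ x = x := by
    have hone : AlgEquiv.restrictNormal (1 : Γℚ) F = 1 :=
      map_one (AlgEquiv.restrictNormalHom (F := ℚ) (K₁ := ℚbar) F)
    rw [← hone, restrict_eq_iff] at h1
    exact h1
  have h3 : σ ∈ F.fixingSubgroup := by
    rw [IntermediateField.mem_fixingSubgroup_iff]; exact h2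
  rw [hfix, MonoidHom.mem_ker] at h3
  exact h3

/-- transport of inertia to another place over the same prime -/
theorem exists_conj_inertia {A B : ValuationSubring ℚbar} {q : ℕ} (hq : q.Prime)
    (hA : A.LiesOverPrime q) (hB : B.LiesOverPrime q) : ∃ γ : Γℚ,
      ∀ σ ∈ A.inertiaSubgroupIn ℚ, γ * σ * γ⁻¹ ∈ B.inertiaSubgroupIn ℚ := by
  obtain ⟨γ, rfl⟩ := exists_smul_eq A B hq hA hB
  exact ⟨γ, fun σ hσ => TWP.Place.mem_inertia_conj γ hσ⟩

end ram

/-! ### quadratic characters -/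

/-- the quadratic character of conductor `q` -/
noncomputable def chiq (q : Nat.Primes) : Γℚ →* ℤˣ :=
  haveI : Fact (q : ℕ).Prime := ⟨q.2⟩
  (quadraticChar (ZMod q)).toUnitHom.comp (Cyclotomic.cyc q)

/-- the product of the characters of prime conductor -/
noncomputable def chiS (S : Finset Nat.Primes) : Γℚ →* ℤˣ := ∏ q ∈ S, chiq q

theorem chiS_apply (S : Finset Nat.Primes) (σ : Γℚ) : chiS S σ = ∏ q ∈ S, chiq q σ := by
  rw [chiS, MonoidHom.finsetProd_apply]

theorem chiq_inertia {q : Nat.Primes} {ℓ : ℕ} (hℓ : ℓ.Prime) (hne : ℓ ≠ q)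
    {A : ValuationSubring ℚbar} (hA : A.LiesOverPrime ℓ) {σ : Γℚ}
    (hσ : σ ∈ A.inertiaSubgroupIn ℚ) : chiq q σ = 1 := by
  have : Fact (q : ℕ).Prime := ⟨q.2⟩
  have h1 : Cyclotomic.cyc (q : ℕ) σ = 1 := Cyclotomic.cyc_inertia hℓ
    (fun h => hne ((Nat.prime_dvd_prime_iff_eq hℓ q.2).mp h)) A hA hσ
  change (quadraticChar (ZMod q)).toUnitHom (Cyclotomic.cyc q σ) = 1
  rw [h1, map_one]

theorem chiq_frobenius {q : Nat.Primes} {p : ℕ} (hp : p.Prime) (hne : p ≠ q)
    {A : ValuationSubring ℚbar} (hA : A.LiesOverPrime p) {σ : Γℚ} (hσ : A.IsFrobeniusAt σ p) :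
    ((chiq q σ : ℤˣ) : ℤ) = jacobiSym p q := by
  have : Fact (q : ℕ).Prime := ⟨q.2⟩
  have h1 : ((Cyclotomic.cyc (q : ℕ) σ : (ZMod q)ˣ) : ZMod q) = p := Cyclotomic.cyc_frobenius hp
    (fun h => hne ((Nat.prime_dvd_prime_iff_eq hp q.2).mp h)) A hA hσ
  rw [← jacobiSym.legendreSym.to_jacobiSym]
  change quadraticChar (ZMod q) (Cyclotomic.cyc q σ : (ZMod q)ˣ) = quadraticChar (ZMod q) _
  rw [h1, Int.cast_natCast]

/-- `chiq q` is ramified at `q` (odd). -/
theorem exists_chiq_inertia {q : Nat.Primes} (hq2 : (q : ℕ) ≠ 2)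
    {A : ValuationSubring ℚbar} (hA : A.LiesOverPrime q) :
    ∃ σ ∈ A.inertiaSubgroupIn ℚ, chiq q σ = -1 := by
  have : Fact (q : ℕ).Prime := ⟨q.2⟩
  obtain ⟨a, ha⟩ := quadraticChar_exists_neg_one (F := ZMod q) (by rwa [ZMod.ringChar_zmod_n])
  have ha0 : a ≠ 0 := by
    rintro rfl
    rw [quadraticChar_zero] at ha
    exact absurd ha (by decide)
  have key : ∀ (k : ℕ) (_ : (q : ℕ) ^ 1 = k) [NeZero k] (u : (ZMod k)ˣ),
      ∃ τ ∈ A.inertiaSubgroupIn ℚ, Cyclotomic.cyc k τ = u := by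
    intro k hk
    subst hk
    intro _ u
    exact DefCond.exists_inertia_cyc q.2 1 A hA u
  obtain ⟨τ, hτ, h⟩ := key q (pow_one _) (Units.mk0 a ha0)
  refine ⟨τ, hτ, ?_⟩
  change (quadraticChar (ZMod q)).toUnitHom (Cyclotomic.cyc q τ) = -1
  rw [h]
  apply Units.ext
  exact ha

theorem continuous_chiq (q : Nat.Primes) : Continuous (chiq q) := by
  have : Fact (q : ℕ).Prime := ⟨q.2⟩
  obtain ⟨L, hL, h⟩ := Cyclotomic.cyc_finite_level (q : ℕ)
  have h1 : L.fixingSubgroup ≤ (chiq q).ker := by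
    intro σ hσ
    rw [IntermediateField.mem_fixingSubgroup_iff] at hσ
    rw [MonoidHom.mem_ker]
    change (quadraticChar (ZMod q)).toUnitHom (Cyclotomic.cyc q σ) = 1
    rw [h σ hσ, map_one]
  have h2 : IsOpen (((chiq q).ker : Subgroup Γℚ) : Set Γℚ) :=
    Subgroup.isOpen_mono h1 (L.fixingSubgroup_isOpen)
  refine continuous_of_continuousAt_one (chiq q) ?_
  have h3 : nhds (1 : ℤˣ) = pure 1 := by rw [nhds_discrete]
  rw [ContinuousAt, map_one, h3, Filter.tendsto_pure]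
  exact h2.mem_nhds (chiq q).ker.one_mem

theorem continuous_chiS (S : Finset Nat.Primes) : Continuous (chiS S) := by
  have h : (chiS S : Γℚ → ℤˣ) = fun σ => ∏ q ∈ S, chiq q σ := funext (chiS_apply S)
  rw [h]
  exact continuous_finsetProd S fun q _ => continuous_chiq q

/-! ### the main statement -/

/-- `-1 ∈ ρ(I)` and `ρ(I)` has no element of order four. -/
def BadAt (ρ : Γℚ →* G3) (A : ValuationSubring ℚbar) : Prop :=
  (∃ σ ∈ A.inertiaSubgroupIn ℚ, ρ σ = -1) ∧ ¬ ∃ τ ∈ A.inertiaSubgroupIn ℚ, ρ τ * ρ τ = -1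

theorem BadAt.conj {ρ : Γℚ →* G3} {A B : ValuationSubring ℚbar} {q : ℕ} (hq : q.Prime)
    (hA : A.LiesOverPrime q) (hB : B.LiesOverPrime q) (h : BadAt ρ A) : BadAt ρ B := by
  obtain ⟨⟨σ, hσ, hσ1⟩, h2⟩ := h
  refine ⟨?_, ?_⟩
  · obtain ⟨γ, hγ⟩ := exists_conj_inertia hq hA hB
    refine ⟨_, hγ σ hσ, ?_⟩
    rw [map_mul, map_mul, map_inv, hσ1, mul_neg_one, neg_mul, mul_inv_cancel]
  · rintro ⟨τ, hτ, hτ1⟩
    apply h2
    obtain ⟨γ, hγ⟩ := exists_conj_inertia hq hB hA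
    refine ⟨_, hγ τ hτ, ?_⟩
    have e : ρ (γ * τ * γ⁻¹) * ρ (γ * τ * γ⁻¹) = ρ γ * (ρ τ * ρ τ) * (ρ γ)⁻¹ := by
      rw [map_mul, map_mul, map_inv]; group
    rw [e, hτ1, mul_neg_one, neg_mul, mul_inv_cancel]

theorem negone_ne_one : (-1 : G3) ≠ 1 := by
  intro h
  exact absurd (congrArg (fun g : G3 => g 0 0) h) (by decide)

/-- elements of `SL₂(𝔽₃)` whose square is not `-1` have cube `±1` -/
theorem cube_eq_or {g : G3} (hd : dt g = 1) (h : g * g ≠ -1) : g * g * g = 1 ∨ g * g * g = -1 := by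
  rw [Ne, G3.ext_iff'] at h
  rw [G3.ext_iff', G3.ext_iff']
  simp only [mul00, mul01, mul10, mul11, one00, one01, one10, one11, negone00, negone01,
    negone10, negone11] at h ⊢
  have key : ∀ a b c d : ZMod 3, a * d - b * c = 1 →
      ¬ (a * a + b * c = -1 ∧ a * b + b * d = 0 ∧ c * a + d * c = 0 ∧ c * b + d * d = -1) →
      (((a * a + b * c) * a + (a * b + b * d) * c = 1 ∧
        (a * a + b * c) * b + (a * b + b * d) * d = 0 ∧
        (c * a + d * c) * a + (c * b + d * d) * c = 0 ∧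
        (c * a + d * c) * b + (c * b + d * d) * d = 1) ∨
       ((a * a + b * c) * a + (a * b + b * d) * c = -1 ∧
        (a * a + b * c) * b + (a * b + b * d) * d = 0 ∧
        (c * a + d * c) * a + (c * b + d * d) * c = 0 ∧
        (c * a + d * c) * b + (c * b + d * d) * d = -1)) := by
    decide +kernel
  exact key _ _ _ _ hd h

/-- **The key step.** If `A` is bad for `ρ` and `χ` is ramified at `A` then `ρ ⊗ χ` has inertia of
exponent three at `A`. -/
theorem twist_cube_eq_one {ρ : Γℚ →* G3} (hcont : Continuous ρ) {χ : Γℚ →* ℤˣ}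
    (hχ : Continuous χ) {q : ℕ} (hq : q.Prime) (hq2 : q ≠ 2) {A : ValuationSubring ℚbar}
    (hA : A.LiesOverPrime q) (hd : ∀ σ ∈ A.inertiaSubgroupIn ℚ, dt (ρ σ) = 1)
    (hbad : BadAt ρ A) (hram : ∃ τ ∈ A.inertiaSubgroupIn ℚ, χ τ = -1) {σ : Γℚ}
    (hσ : σ ∈ A.inertiaSubgroupIn ℚ) :
    twist ρ χ σ * twist ρ χ σ * twist ρ χ σ = 1 := by
  obtain ⟨⟨s, hs, hs1⟩, h4⟩ := hbad
  obtain ⟨t, ht, ht1⟩ := hram
  push Not at h4
  -- the pair `(χ, ρ)`
  let R : Γℚ →* ℤˣ × G3 := χ.prod ρ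
  have hR : Continuous R := hχ.prodMk hcont
  have hI : ∀ x ∈ A.inertiaSubgroupIn ℚ, x * x * x ∈ A.inertiaSubgroupIn ℚ := fun x hx =>
    mul_mem (mul_mem hx hx) hx
  have hcube : ∀ x ∈ A.inertiaSubgroupIn ℚ, ρ (x * x * x) = 1 ∨ ρ (x * x * x) = -1 := by
    intro x hx
    rw [map_mul, map_mul]
    exact cube_eq_or (hd x hx) (h4 x hx)
  have hcube' : ∀ x : Γℚ, χ (x * x * x) = χ x := by
    intro x
    rw [map_mul, map_mul, ← sq, Int.units_sq, one_mul]
  -- two elements with image in the centre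
  have huniq : ∀ x ∈ A.inertiaSubgroupIn ℚ, ∀ y ∈ A.inertiaSubgroupIn ℚ,
      (ρ x = 1 ∨ ρ x = -1) → (ρ y = 1 ∨ ρ y = -1) → R x ≠ 1 → R y ≠ 1 → R x = R y := by
    intro x hx y hy hx1 hy1 hxn hyn
    have hsq : ∀ z : Γℚ, (ρ z = 1 ∨ ρ z = -1) → R z * R z = 1 := by
      intro z hz
      refine Prod.ext ?_ ?_
      · change χ z * χ z = 1
        rw [← sq, Int.units_sq]
      · change ρ z * ρ z = 1
        rcases hz with h | h <;> rw [h] <;> simp
    refine involution_unique_rep R hR hq hq2 hA hx hy (hsq x hx1) (hsq y hy1) ?_ hxn hyn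
    refine Prod.ext (mul_comm _ _) ?_
    change ρ x * ρ y = ρ y * ρ x
    rcases hx1 with h | h <;> rw [h] <;> simp
  have hsn : R s ≠ 1 := by
    intro h
    have h1 : ρ s = 1 := congrArg Prod.snd h
    rw [hs1] at h1
    exact negone_ne_one h1
  have htn : R (t * t * t) ≠ 1 := by
    intro h
    have h1 : χ (t * t * t) = 1 := congrArg Prod.fst h
    rw [hcube', ht1] at h1
    exact absurd h1 (by decide)
  have hst := huniq s hs (t * t * t) (hI t ht) (Or.inr hs1) (hcube t ht) hsn htn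
  have hχs : χ s = -1 := by
    have h1 : χ s = χ (t * t * t) := congrArg Prod.fst hst
    rw [h1, hcube', ht1]
  -- the element `σ ^ 3`
  have hmain : twist ρ χ (σ * σ * σ) = 1 := by
    by_cases h1 : R (σ * σ * σ) = 1
    · have h2 : χ (σ * σ * σ) = 1 := congrArg Prod.fst h1
      have h3 : ρ (σ * σ * σ) = 1 := congrArg Prod.snd h1
      rw [twist_of_eq_one h2, h3]
    · have h2 := huniq s hs (σ * σ * σ) (hI σ hσ) (Or.inr hs1) (hcube σ hσ) hsn h1
      have h3 : χ s = χ (σ * σ * σ) := congrArg Prod.fst h2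
      have h4 : ρ s = ρ (σ * σ * σ) := congrArg Prod.snd h2
      rw [twist_of_eq_neg_one (by rw [← h3, hχs]), ← h4, hs1, neg_neg]
  rw [← map_mul, ← map_mul]
  exact hmain

/-- the product of the primes in `S` -/
def prodS (S : Finset Nat.Primes) : ℕ := ∏ q ∈ S, (q : ℕ)

theorem prime_dvd_prodS {S : Finset Nat.Primes} {p : ℕ} (hp : p.Prime) :
    p ∣ prodS S ↔ ∃ q ∈ S, (q : ℕ) = p := by
  rw [prodS, hp.prime.dvd_finsetProd_iff]
  constructor
  · rintro ⟨q, hq, h⟩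
    exact ⟨q, hq, ((Nat.prime_dvd_prime_iff_eq hp q.2).mp h).symm⟩
  · rintro ⟨q, hq, rfl⟩
    exact ⟨q, hq, dvd_rfl⟩

theorem prodS_insert {S : Finset Nat.Primes} [DecidableEq Nat.Primes] {a : Nat.Primes}
    (ha : a ∉ S) : prodS (insert a S) = (a : ℕ) * prodS S := by
  rw [prodS, Finset.prod_insert ha]
  rfl

theorem prodS_ne_zero (S : Finset Nat.Primes) : prodS S ≠ 0 :=
  Finset.prod_ne_zero_iff.mpr fun q _ => q.2.ne_zero

theorem squarefree_prodS (S : Finset Nat.Primes) : Squarefree (prodS S) := by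
  classical
  induction S using Finset.induction_on with
  | empty => simp [prodS]
  | insert a S ha ih =>
    rw [prodS_insert ha, Nat.squarefree_mul_iff]
    refine ⟨?_, a.2.squarefree, ih⟩
    rw [Nat.Prime.coprime_iff_not_dvd a.2]
    intro h
    obtain ⟨b, hb, hab⟩ := (prime_dvd_prodS a.2).mp h
    exact ha (by rwa [← Subtype.ext hab])

theorem chiS_inertia {S : Finset Nat.Primes} {ℓ : ℕ} (hℓ : ℓ.Prime) (hn : ¬ ℓ ∣ prodS S)
    {A : ValuationSubring ℚbar} (hA : A.LiesOverPrime ℓ) {σ : Γℚ}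
    (hσ : σ ∈ A.inertiaSubgroupIn ℚ) : chiS S σ = 1 := by
  rw [chiS_apply]
  refine Finset.prod_eq_one fun q hq => ?_
  exact chiq_inertia hℓ (fun h => hn ((prime_dvd_prodS hℓ).mpr ⟨q, hq, h.symm⟩)) hA hσ

theorem chiS_frobenius {S : Finset Nat.Primes} {p : ℕ} (hp : p.Prime) (hn : ¬ p ∣ prodS S)
    {A : ValuationSubring ℚbar} (hA : A.LiesOverPrime p) {σ : Γℚ} (hσ : A.IsFrobeniusAt σ p) :
    ((chiS S σ : ℤˣ) : ℤ) = jacobiSym p (prodS S) := by
  classical
  rw [chiS_apply, Units.coe_prod]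
  have h1 : ∀ T : Finset Nat.Primes, jacobiSym p (prodS T) = ∏ q ∈ T, jacobiSym p q := by
    intro T
    induction T using Finset.induction_on with
    | empty => simp [prodS]
    | insert a T ha ih =>
      have hne : NeZero (a : ℕ) := ⟨a.2.ne_zero⟩
      have hne' : NeZero (prodS T) := ⟨prodS_ne_zero T⟩
      rw [prodS_insert ha, Finset.prod_insert ha, jacobiSym.mul_right, ih]
  rw [h1]
  refine Finset.prod_congr rfl fun q hq => ?_
  exact chiq_frobenius hp (fun h => hn ((prime_dvd_prodS hp).mpr ⟨q, hq, h.symm⟩)) hA hσ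

theorem exists_chiS_inertia {S : Finset Nat.Primes} {q : Nat.Primes} (hqS : q ∈ S)
    (hq2 : (q : ℕ) ≠ 2) {A : ValuationSubring ℚbar} (hA : A.LiesOverPrime q) :
    ∃ σ ∈ A.inertiaSubgroupIn ℚ, chiS S σ = -1 := by
  classical
  obtain ⟨σ, hσ, h⟩ := exists_chiq_inertia hq2 hA
  refine ⟨σ, hσ, ?_⟩
  rw [chiS_apply, ← Finset.mul_prod_erase S _ hqS, h, Finset.prod_eq_one, mul_one]
  intro r hr
  exact chiq_inertia q.2 (fun h' => (Finset.mem_erase.mp hr).1 (Subtype.ext h').symm) hA hσ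

/-- **The normalising twist.** -/
theorem exists_twist (ρ : Γℚ →* G3) (hcont : Continuous ρ) (hsurj : Function.Surjective ρ)
    (hdet : ∀ σ : Γℚ, Matrix.GeneralLinearGroup.det (ρ σ) =
      WeierstrassCurve.modThreeCyclotomicChar σ) :
    ∃ (m : ℕ) (χ : Γℚ →* ℤˣ), Squarefree m ∧ m.Coprime 6 ∧ Continuous χ ∧
      (∀ q : ℕ, q.Prime → ¬ q ∣ m → ∀ A : ValuationSubring ℚbar, A.LiesOverPrime q →
        ∀ σ ∈ A.inertiaSubgroupIn ℚ, χ σ = 1) ∧
      (∀ p : ℕ, p.Prime → ¬ p ∣ m → ∀ A : ValuationSubring ℚbar, A.LiesOverPrime p →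
        ∀ σ : Γℚ, A.IsFrobeniusAt σ p → ((χ σ : ℤˣ) : ℤ) = jacobiSym p m) ∧
      IsOctaG (twist ρ χ) := by
  classical
  obtain ⟨B, hB⟩ := exists_finset_unram ρ hcont
  -- the bad primes
  let S : Finset Nat.Primes := (B.subtype Nat.Prime).filter fun q => 5 ≤ (q : ℕ) ∧
    ∃ A : ValuationSubring ℚbar, A.LiesOverPrime q ∧ BadAt ρ A
  have hS : ∀ q : Nat.Primes, q ∈ S ↔ 5 ≤ (q : ℕ) ∧
      ∃ A : ValuationSubring ℚbar, A.LiesOverPrime q ∧ BadAt ρ A := by
    intro q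
    refine ⟨fun h => (Finset.mem_filter.mp h).2,
      fun h => Finset.mem_filter.mpr ⟨Finset.mem_subtype.mpr ?_, h⟩⟩
    by_contra hqB
    obtain ⟨-, A, hA, ⟨σ, hσ, h1⟩, -⟩ := h
    rw [hB q q.2 hqB A hA σ hσ] at h1
    exact negone_ne_one h1.symm
  have h5 : ∀ q : ℕ, q.Prime → q ∣ prodS S → 5 ≤ q := by
    intro q hq hqS
    obtain ⟨r, hr, rfl⟩ := (prime_dvd_prodS hq).mp hqS
    exact ((hS r).mp hr).1
  refine ⟨prodS S, chiS S, squarefree_prodS S, ?_, continuous_chiS S, ?_, ?_, ?_, ?_, ?_, ?_⟩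
  · refine Nat.Coprime.symm (Nat.Coprime.mul_left (m := 2) (n := 3) ?_ ?_)
    · rw [Nat.Prime.coprime_iff_not_dvd Nat.prime_two]
      intro h
      have := h5 2 Nat.prime_two h
      omega
    · rw [Nat.Prime.coprime_iff_not_dvd Nat.prime_three]
      intro h
      have := h5 3 Nat.prime_three h
      omega
  · intro q hq hn A hA σ hσ
    exact chiS_inertia hq hn hA hσ
  · intro p hp hn A hA σ hσ
    exact chiS_frobenius hp hn hA hσ
  · exact continuous_twist hcont (continuous_chiS S)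
  · exact surjective_twist _ hsurj
  · intro σ
    rw [det_twist, hdet]
  · intro q hq hq5 A hA σ hσ h1
    by_cases hqS : q ∣ prodS S
    · exfalso
      obtain ⟨r, hr, rfl⟩ := (prime_dvd_prodS hq).mp hqS
      obtain ⟨-, A', hA', hbad'⟩ := (hS r).mp hr
      have hbad : BadAt ρ A := hbad'.conj hq hA' hA
      have hd : ∀ σ ∈ A.inertiaSubgroupIn ℚ, dt (ρ σ) = 1 := by
        intro τ hτ
        have h2 := hdet τ
        rw [modThreeCyclotomicChar_eq_cyc, Cyclotomic.cyc_inertia hq (fun h => by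
          have := (Nat.prime_dvd_prime_iff_eq hq Nat.prime_three).mp h
          omega) A hA hτ] at h2
        exact (det_eq_one_iff _).mp h2
      have h3 := twist_cube_eq_one hcont (continuous_chiS S) hq (by omega) hA hd hbad
        (exists_chiS_inertia hr (by omega) hA) hσ
      rw [h1] at h3
      have h4 : (-1 : G3) * -1 * -1 = -1 := by simp
      rw [h4] at h3
      exact negone_ne_one h3
    · have hun : ∀ τ ∈ A.inertiaSubgroupIn ℚ, chiS S τ = 1 := fun τ hτ =>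
        chiS_inertia hq hqS hA hτ
      rw [twist_of_eq_one (hun σ hσ)] at h1
      by_contra hcon
      apply hqS
      refine (prime_dvd_prodS hq).mpr ⟨⟨q, hq⟩, (hS _).mpr ⟨hq5, A, hA, ⟨σ, hσ, h1⟩, ?_⟩, rfl⟩
      rintro ⟨τ, hτ, h2⟩
      exact hcon ⟨τ, hτ, by rw [twist_of_eq_one (hun τ hτ)]; exact h2⟩

end Fermat.Agent.LTG
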