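import Fermat.Agent.LTG.Psi
import Fermat.Agent.S48
import Fermat.Agent.BrauerNesbitt2
import Fermat.Agent.Density.Final
import Fermat.Agent.QbarInst

/-!
# S47: comparison in characteristic zero

A normalized weight one eigenform `g` whose `p`-th coefficients at the primes with Frobenius in
`ρ⁻¹(Q8)` are the values of the character of `Q8` has `a_p(g) = ι (tr Ψ(ρ(Frob_p)))` for all `p ∤ N`,
for one of the two embeddings `ι : ℤ[√-2] → ℂ`.
(helper45)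
-/

set_option autoImplicit false

open Matrix FLT.ExplicitLift Fermat.Agent.LT.K CongruenceSubgroup

namespace Fermat.Agent.LTG.Cmp

local notation "Γℚ" => (AlgebraicClosure ℚ ≃ₐ[ℚ] AlgebraicClosure ℚ)
local notation "ℚbar" => AlgebraicClosure ℚ

section mC

variable (Ψ : GL (Fin 2) (ZMod 3) →* GL (Fin 2) (ℤ√(-2)))

/-- the complex matrix of `Ψ g` -/
noncomputable def mC (g : G3) : Matrix (Fin 2) (Fin 2) ℂ := (mP Ψ g).map io

theorem mC_mul (g h : G3) : mC Ψ (g * h) = mC Ψ g * mC Ψ h := by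
  rw [mC, mC, mC, mP_mul, Matrix.map_mul]

theorem mC_one : mC Ψ 1 = 1 := by
  rw [mC, mP_one, Matrix.map_one _ (map_zero _) (map_one _)]

theorem trace_mC (g : G3) : (mC Ψ g).trace = io (mP Ψ g).trace := by
  rw [mC, Matrix.trace_fin_two, Matrix.trace_fin_two, map_add]
  rfl

/-- representatives of `Q8 / ±1` -/
def qx : Fin 4 → G3 := ![1, mk4 0 1 (-1) 0 (by decide), mk4 1 1 1 (-1) (by decide),
  mk4 1 (-1) (-1) (-1) (by decide)]

theorem qx_mem (i : Fin 4) : qx i ∈ Q8 := by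
  fin_cases i
  · exact Q8.one_mem
  · change isQ 0 1 (-1) 0; decide
  · change isQ 1 1 1 (-1); decide
  · change isQ 1 (-1) (-1) (-1); decide

theorem trQ_qx : ∀ i j : Fin 4, trQ (qx i * qx j) = if i = j then (if i = 0 then 2 else -2) else 0 := by
  decide +kernel

variable {Ψ} (hΨ : ∀ g, Matrix.GeneralLinearGroup.map red (Ψ g) = g)

include hΨ in
theorem trace_mC_Q8 {g : G3} (hg : g ∈ Q8) : (mC Ψ g).trace = ((trQ g : ℤ) : ℂ) := by
  rw [trace_mC, trace_Q8 hΨ hg, map_intCast]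

include hΨ in
theorem linearIndependent_qx : LinearIndependent ℂ fun i : Fin 4 => mC Ψ (qx i) := by
  rw [Fintype.linearIndependent_iff]
  intro c hc j
  have h1 := congrArg (fun X => (X * mC Ψ (qx j)).trace) hc
  simp only [Finset.sum_mul, Matrix.trace_sum, smul_mul_assoc, Matrix.trace_smul, zero_mul,
    Matrix.trace_zero, ← mC_mul, trace_mC_Q8 hΨ (Q8.mul_mem (qx_mem _) (qx_mem _)), trQ_qx,
    smul_eq_mul] at h1
  rw [Finset.sum_eq_single j] at h1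
  · rw [if_pos rfl] at h1
    refine (mul_eq_zero.mp h1).resolve_right ?_
    split_ifs <;> norm_num
  · intro i _ hij
    rw [if_neg hij, Int.cast_zero, mul_zero]
  · intro h; exact absurd (Finset.mem_univ _) h

include hΨ in
theorem span_qx : Submodule.span ℂ {Y | ∃ g ∈ Q8, Y = mC Ψ g} = ⊤ := by
  have h1 := (linearIndependent_qx hΨ).span_eq_top_of_card_eq_finrank (by
    rw [Module.finrank_matrix, Module.finrank_self]; rfl)
  rw [eq_top_iff, ← h1]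
  refine Submodule.span_mono ?_
  rintro _ ⟨i, rfl⟩
  exact ⟨_, qx_mem i, rfl⟩

include hΨ in
theorem scalar_of_commute {X : Matrix (Fin 2) (Fin 2) ℂ}
    (h : ∀ g ∈ Q8, X * mC Ψ g = mC Ψ g * X) : X = X 0 0 • (1 : Matrix (Fin 2) (Fin 2) ℂ) := by
  have hall : ∀ Y : Matrix (Fin 2) (Fin 2) ℂ, X * Y = Y * X := by
    intro Y
    have hY : Y ∈ Submodule.span ℂ {Y | ∃ g ∈ Q8, Y = mC Ψ g} := by rw [span_qx hΨ]; trivial
    induction hY using Submodule.span_induction with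
    | mem Y hY => obtain ⟨g, hg, rfl⟩ := hY; exact h g hg
    | zero => rw [mul_zero, zero_mul]
    | add Y Z _ _ h1 h2 => rw [mul_add, add_mul, h1, h2]
    | smul a Y _ h1 => rw [mul_smul_comm, smul_mul_assoc, h1]
  have h1 := hall !![0, 1; 0, 0]
  have h2 := hall !![0, 0; 1, 0]
  have e1 := congrFun (congrFun h1 0) 1
  have e2 := congrFun (congrFun h1 0) 0
  have e3 := congrFun (congrFun h2 0) 0
  simp [Matrix.mul_apply, Fin.sum_univ_two] at e1 e2 e3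
  ext i j
  fin_cases i <;> fin_cases j
  · simp
  · simpa using e3
  · simpa using e2.symm
  · simpa using e1.symm

end mC

/-- `ρ` factors through a finite level -/
theorem exists_level (ρ : Γℚ →* G3) (hρ : Continuous ρ) :
    ∃ L : IntermediateField ℚ ℚbar, FiniteDimensional ℚ L ∧
      ∀ σ : Γℚ, (∀ x ∈ L, σ x = x) → ρ σ = 1 := by
  have hopen : IsOpen ((ρ.ker : Subgroup Γℚ) : Set Γℚ) := (isOpen_discrete ({1} : Set G3)).preimage hρ
  have hfix : (IntermediateField.fixedField ρ.ker).fixingSubgroup = ρ.ker :=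
    InfiniteGalois.fixingSubgroup_fixedField ⟨ρ.ker, Subgroup.isClosed_of_isOpen _ hopen⟩
  refine ⟨IntermediateField.fixedField ρ.ker, ?_, ?_⟩
  · rw [← InfiniteGalois.isOpen_iff_finite, hfix]
    exact hopen
  · intro σ hσ
    rw [← MonoidHom.mem_ker, ← hfix, IntermediateField.mem_fixingSubgroup_iff]
    exact hσ

/-- conjugation by an element of determinant `-1` inverts `SL₂(𝔽₃) / Q8` -/
theorem conj_mem_Q8 {c g : G3} (hc : c = mk4 1 0 0 (-1) (by decide)) (hg : g ∈ SLs) :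
    c * g * c * g ∈ Q8 := by
  subst hc
  rw [mem_Q8]
  simp only [mul00, mul01, mul10, mul11, mk4_00, mk4_01, mk4_10, mk4_11]
  have key : ∀ a b c d : ZMod 3, a * d - b * c = 1 →
      isQ (((1 * a + 0 * c) * 1 + (1 * b + 0 * d) * 0) * a +
        ((1 * a + 0 * c) * 0 + (1 * b + 0 * d) * -1) * c)
      (((1 * a + 0 * c) * 1 + (1 * b + 0 * d) * 0) * b +
        ((1 * a + 0 * c) * 0 + (1 * b + 0 * d) * -1) * d)
      (((0 * a + -1 * c) * 1 + (0 * b + -1 * d) * 0) * a +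
        ((0 * a + -1 * c) * 0 + (0 * b + -1 * d) * -1) * c)
      (((0 * a + -1 * c) * 1 + (0 * b + -1 * d) * 0) * b +
        ((0 * a + -1 * c) * 0 + (0 * b + -1 * d) * -1) * d) := by
    decide +kernel
  exact key _ _ _ _ hg

theorem cube_mem_Q8 {g : G3} (hg : g ∈ SLs) : g * g * g ∈ Q8 := by
  rcases SL_cases hg with h | h | h
  · exact Q8.mul_mem (Q8.mul_mem h h) h
  · rw [h]; exact Q8.one_mem
  · rw [h]
    rw [mem_Q8]; decide

/-- **Comparison in characteristic zero.** -/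
theorem exists_emb (ρ : Γℚ →* GL (Fin 2) (ZMod 3)) (hρ : Continuous ρ)
    (hsurj : Function.Surjective ρ) (Ψ : GL (Fin 2) (ZMod 3) →* GL (Fin 2) (ℤ√(-2)))
    (hΨ : ∀ g, Matrix.GeneralLinearGroup.map red (Ψ g) = g)
    {N : ℕ} [NeZero N] (ε : DirichletCharacter ℂ N) (f : CuspForm (Gamma1 N) 1)
    (hf₁ : ModularFormClass.qCoeff f 1 = 1)
    (hT : ∀ p : ℕ, p.Prime → ¬ p ∣ N → ∀ n : ℕ,
        ModularFormClass.qCoeff f (p * n) +
            ε (p : ZMod N) * (if p ∣ n then ModularFormClass.qCoeff f (n / p) else 0) =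
          ModularFormClass.qCoeff f p * ModularFormClass.qCoeff f n)
    (T : Finset ℕ)
    (hrel : ∀ p : ℕ, p.Prime → p ∉ T → ¬ p ∣ N → ∀ A : ValuationSubring (AlgebraicClosure ℚ),
      A.LiesOverPrime p → ∀ σ : Γℚ, A.IsFrobeniusAt σ p → ρ σ ∈ Q8 →
        ModularFormClass.qCoeff f p = ((trQ (ρ σ) : ℤ) : ℂ)) :
    ∃ ι : ℤ√(-2) →+* ℂ, ∀ p : ℕ, p.Prime → ¬ p ∣ N →
      ∀ A : ValuationSubring (AlgebraicClosure ℚ), A.LiesOverPrime p →
        ∀ σ : Γℚ, A.IsFrobeniusAt σ p →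
          ModularFormClass.qCoeff f p =
            ι ((Ψ (ρ σ) : GL (Fin 2) (ℤ√(-2))) : Matrix (Fin 2) (Fin 2) (ℤ√(-2))).trace := by
  classical
  obtain ⟨r, hfin, -, hr⟩ := S48.result N ε f hf₁ hT
  obtain ⟨L1, hL1, h1⟩ := hfin
  obtain ⟨L2, hL2, h2⟩ := exists_level ρ hρ
  have hfinL : FiniteDimensional ℚ (L1 ⊔ L2 : IntermediateField ℚ ℚbar) := inferInstance
  have hN : N ≠ 0 := NeZero.ne N
  -- traces on `Q8`
  have htr : ∀ g : Γℚ, ρ g ∈ Q8 →
      ((r g : GL (Fin 2) ℂ) : Matrix (Fin 2) (Fin 2) ℂ).trace = ((trQ (ρ g) : ℤ) : ℂ) := by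
    intro g hg
    obtain ⟨ℓ, hℓ, hS, A, σ, hA, hσ, hx⟩ := Density.Final.exists_frobenius_eq (L1 ⊔ L2)
      (T ∪ N.primeFactors) g
    rw [Finset.mem_union, not_or, Nat.mem_primeFactors] at hS
    have hℓN : ¬ ℓ ∣ N := fun h => hS.2 ⟨hℓ, h, hN⟩
    have e1 : r σ = r g := by
      have h3 : r (g⁻¹ * σ) = 1 := by
        apply h1
        intro x hxL
        rw [AlgEquiv.mul_apply, hx x ((le_sup_left : L1 ≤ L1 ⊔ L2) hxL)]
        exact g.symm_apply_apply x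
      rw [map_mul, map_inv, inv_mul_eq_one] at h3
      exact h3.symm
    have e2 : ρ σ = ρ g := by
      have h3 : ρ (g⁻¹ * σ) = 1 := by
        apply h2
        intro x hxL
        rw [AlgEquiv.mul_apply, hx x ((le_sup_right : L2 ≤ L1 ⊔ L2) hxL)]
        exact g.symm_apply_apply x
      rw [map_mul, map_inv, inv_mul_eq_one] at h3
      exact h3.symm
    rw [← e1, ((hr ℓ hℓ hℓN A hA).2 σ hσ).1, hrel ℓ hℓ hS.1 hℓN A hA σ hσ (by rw [e2]; exact hg),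
      e2]
  -- the two representations of `U = ρ⁻¹(Q8)`
  let U : Subgroup Γℚ := Q8.comap ρ
  let toEnd : Matrix (Fin 2) (Fin 2) ℂ ≃ₐ[ℂ] Module.End ℂ (Fin 2 → ℂ) := Matrix.toLinAlgEquiv'
  let rH : Γℚ →* Matrix (Fin 2) (Fin 2) ℂ := (Units.coeHom (Matrix (Fin 2) (Fin 2) ℂ)).comp r
  let mkHom : G3 →* Matrix (Fin 2) (Fin 2) ℂ :=
    { toFun := mC Ψ
      map_one' := mC_one Ψ
      map_mul' := mC_mul Ψ }
  let tE : Matrix (Fin 2) (Fin 2) ℂ →* Module.End ℂ (Fin 2 → ℂ) := toEnd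
  let ρ₁ : U →* Module.End ℂ (Fin 2 → ℂ) := (tE.comp rH).comp U.subtype
  let ρ₂ : U →* Module.End ℂ (Fin 2 → ℂ) := ((tE.comp mkHom).comp ρ).comp U.subtype
  have htrE : ∀ X : Matrix (Fin 2) (Fin 2) ℂ,
      LinearMap.trace ℂ (Fin 2 → ℂ) (toEnd X) = X.trace := fun X => Matrix.trace_toLin'_eq X
  have hspan : Submodule.span ℂ (Set.range ρ₂) = ⊤ := by
    rw [eq_top_iff]
    intro F _
    obtain ⟨X, rfl⟩ := toEnd.surjective F
    have h3 : X ∈ Submodule.span ℂ {Y | ∃ g ∈ Q8, Y = mC Ψ g} := by rw [span_qx hΨ]; trivial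
    have h4 : toEnd X ∈ (Submodule.span ℂ {Y | ∃ g ∈ Q8, Y = mC Ψ g}).map
        toEnd.toLinearMap := ⟨X, h3, rfl⟩
    rw [Submodule.map_span] at h4
    refine Submodule.span_mono ?_ h4
    rintro _ ⟨_, ⟨g, hg, rfl⟩, rfl⟩
    obtain ⟨σ, rfl⟩ := hsurj g
    exact ⟨⟨σ, hg⟩, rfl⟩
  obtain ⟨e, he⟩ := BN2.exists_linearEquiv_of_trace_eq ρ₁ ρ₂ rfl
    (fun u => by
      change LinearMap.trace ℂ _ (toEnd (rH u.1)) = LinearMap.trace ℂ _ (toEnd (mC Ψ (ρ u.1)))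
      rw [htrE, htrE, trace_mC_Q8 hΨ u.2]
      exact htr u.1 u.2) hspan
  -- the transported representation
  let R' : Γℚ → Matrix (Fin 2) (Fin 2) ℂ := fun σ => toEnd.symm (e.conj (toEnd (rH σ)))
  have hR'mul : ∀ σ τ, R' (σ * τ) = R' σ * R' τ := by
    intro σ τ
    change toEnd.symm (e.conj (toEnd (rH (σ * τ)))) = _
    rw [map_mul, map_mul, Module.End.mul_eq_comp, LinearEquiv.conj_comp, ← Module.End.mul_eq_comp,
      map_mul]
  have hR'U : ∀ σ, ρ σ ∈ Q8 → R' σ = mC Ψ (ρ σ) := by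
    intro σ hσ
    change toEnd.symm (e.conj (toEnd (rH σ))) = _
    rw [AlgEquiv.symm_apply_eq]
    refine LinearMap.ext fun x => ?_
    have := he ⟨σ, hσ⟩ (e.symm x)
    rw [e.apply_symm_apply] at this
    exact this
  have hR'tr : ∀ σ, (R' σ).trace = ((r σ : GL (Fin 2) ℂ) : Matrix (Fin 2) (Fin 2) ℂ).trace := by
    intro σ
    rw [← htrE, AlgEquiv.apply_symm_apply, ← htrE]
    exact LinearMap.trace_conj' (toEnd (rH σ)) e
  -- `R' σ = ψ σ • Ψ(ρ σ)`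
  have hinv : ∀ g : G3, mC Ψ g * mC Ψ g⁻¹ = 1 := fun g => by rw [← mC_mul, mul_inv_cancel, mC_one]
  have hinv' : ∀ g : G3, mC Ψ g⁻¹ * mC Ψ g = 1 := fun g => by rw [← mC_mul, inv_mul_cancel, mC_one]
  have hcomm : ∀ σ : Γℚ, ∀ q ∈ Q8, (R' σ * mC Ψ (ρ σ)⁻¹) * mC Ψ q =
      mC Ψ q * (R' σ * mC Ψ (ρ σ)⁻¹) := by
    intro σ q hq
    obtain ⟨u, rfl⟩ := hsurj q
    have hu' : ρ (σ⁻¹ * u * σ) ∈ Q8 := by
      rw [map_mul, map_mul, map_inv]
      have := (inferInstance : Q8.Normal).conj_mem _ hq (ρ σ)⁻¹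
      rwa [inv_inv] at this
    calc (R' σ * mC Ψ (ρ σ)⁻¹) * mC Ψ (ρ u)
        = R' σ * (mC Ψ (ρ (σ⁻¹ * u * σ)) * mC Ψ (ρ σ)⁻¹) := by
          rw [mul_assoc, ← mC_mul, ← mC_mul, map_mul, map_mul, map_inv, mul_inv_cancel_right]
      _ = R' σ * R' (σ⁻¹ * u * σ) * mC Ψ (ρ σ)⁻¹ := by rw [hR'U _ hu', mul_assoc (R' σ)]
      _ = R' (u * σ) * mC Ψ (ρ σ)⁻¹ := by
          rw [← hR'mul]
          congr 2
          group
      _ = mC Ψ (ρ u) * (R' σ * mC Ψ (ρ σ)⁻¹) := by rw [hR'mul, hR'U u hq, mul_assoc]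
  let ψ : Γℚ → ℂ := fun σ => (R' σ * mC Ψ (ρ σ)⁻¹) 0 0
  have hψ : ∀ σ, R' σ = ψ σ • mC Ψ (ρ σ) := by
    intro σ
    have h3 := scalar_of_commute hΨ (hcomm σ)
    have h4 := congrArg (fun X => X * mC Ψ (ρ σ)) h3
    have h5 : R' σ * mC Ψ (ρ σ)⁻¹ * mC Ψ (ρ σ) = R' σ := by
      rw [mul_assoc, hinv', mul_one]
    have h6 : ((R' σ * mC Ψ (ρ σ)⁻¹) 0 0 • (1 : Matrix (Fin 2) (Fin 2) ℂ)) * mC Ψ (ρ σ) =
        ψ σ • mC Ψ (ρ σ) := by
      rw [smul_mul_assoc, one_mul]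
    exact h5.symm.trans (h4.trans h6)
  have hmC0 : ∀ g : G3, mC Ψ g ≠ 0 := by
    intro g h
    have := hinv g
    rw [h, zero_mul] at this
    exact zero_ne_one this
  have hψmul : ∀ σ τ, ψ (σ * τ) = ψ σ * ψ τ := by
    intro σ τ
    have h3 := hR'mul σ τ
    rw [hψ (σ * τ), hψ σ, hψ τ, smul_mul_smul_comm, ← mC_mul, map_mul] at h3
    have h4 : (ψ (σ * τ) - ψ σ * ψ τ) • mC Ψ (ρ σ * ρ τ) = 0 := by rw [sub_smul, h3, sub_self]
    exact sub_eq_zero.mp ((smul_eq_zero.mp h4).resolve_right (hmC0 _))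
  have hψU : ∀ σ, ρ σ ∈ Q8 → ψ σ = 1 := by
    intro σ hσ
    have h3 := hψ σ
    rw [hR'U σ hσ] at h3
    have h4 : (ψ σ - 1) • mC Ψ (ρ σ) = 0 := by rw [sub_smul, ← h3, one_smul, sub_self]
    exact sub_eq_zero.mp ((smul_eq_zero.mp h4).resolve_right (hmC0 _))
  obtain ⟨c, hc⟩ := hsurj (mk4 1 0 0 (-1) (by decide))
  have hdc : dt (ρ c) = -1 := by rw [hc]; decide
  have hψcc : ψ c * ψ c = 1 := by
    rw [← hψmul]
    apply hψU
    rw [map_mul, hc, mem_Q8]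
    decide
  have hψSL : ∀ σ, ρ σ ∈ SLs → ψ σ = 1 := by
    intro σ hσ
    have h3 : ψ (σ * σ * σ) = 1 := by
      apply hψU
      rw [map_mul, map_mul]
      exact cube_mem_Q8 hσ
    have h4 : ψ (c * σ * c * σ) = 1 := by
      apply hψU
      rw [map_mul, map_mul, map_mul]
      exact conj_mem_Q8 hc hσ
    rw [hψmul, hψmul] at h3
    rw [hψmul, hψmul, hψmul] at h4
    have h5 : ψ σ * ψ σ = 1 := by
      calc ψ σ * ψ σ = (ψ c * ψ c) * (ψ σ * ψ σ) := by rw [hψcc, one_mul]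
        _ = ψ c * ψ σ * ψ c * ψ σ := by ring
        _ = 1 := h4
    rw [h5, one_mul] at h3
    exact h3
  have hψc : ∀ σ, dt (ρ σ) = -1 → ψ σ = ψ c := by
    intro σ hσ
    have h3 : ψ (σ * c⁻¹) = 1 := by
      apply hψSL
      rw [mem_SLs, map_mul, map_inv, dt_mul, dt_inv, hσ, hdc]; ring
    have h4 := hψmul (σ * c⁻¹) c
    rw [inv_mul_cancel_right, h3, one_mul] at h4
    exact h4
  have htrall : ∀ σ, ((r σ : GL (Fin 2) ℂ) : Matrix (Fin 2) (Fin 2) ℂ).trace =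
      ψ σ * io (mP Ψ (ρ σ)).trace := by
    intro σ
    rw [← hR'tr, hψ σ, Matrix.trace_smul, trace_mC, smul_eq_mul]
  rcases mul_self_eq_one_iff.mp hψcc with h | h
  · refine ⟨io, fun p hp hpN A hA σ hσ => ?_⟩
    rw [← ((hr p hp hpN A hA).2 σ hσ).1, htrall σ]
    rcases dt_eq_or (ρ σ) with h3 | h3
    · rw [hψSL σ h3, one_mul]
    · rw [hψc σ h3, h, one_mul]
  · refine ⟨io.comp (starRingEnd (ℤ√(-2))), fun p hp hpN A hA σ hσ => ?_⟩
    rw [← ((hr p hp hpN A hA).2 σ hσ).1, htrall σ, RingHom.comp_apply, starRingEnd_apply]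
    rcases dt_eq_or (ρ σ) with h3 | h3
    · rw [hψSL σ h3, one_mul, star_trace_SL hΨ h3]
    · rw [hψc σ h3, h, star_trace_neg hΨ h3, map_neg, neg_one_mul]

end Fermat.Agent.LTG.Cmp
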