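import Fermat.Agent.LTG.Cmp0
import Fermat.Prelude.Def_ModularForm_EisensteinChiNegThree

/-!
# S47: the comparison in characteristic zero for the character `χ₋₃`
(helper45)
-/

set_option autoImplicit false

open Matrix FLT.ExplicitLift Fermat.Agent.LT.K CongruenceSubgroup EisensteinWeightOne

namespace Fermat.Agent.LTG.Cmp

local notation "Γℚ" => (AlgebraicClosure ℚ ≃ₐ[ℚ] AlgebraicClosure ℚ)

/-- `χ₋₃` as a Dirichlet character modulo `3` -/
noncomputable def chi3D : DirichletCharacter ℂ 3 :=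
  (quadraticChar (ZMod 3)).ringHomComp (Int.castRingHom ℂ)

theorem chi3D_natCast (n : ℕ) : chi3D (n : ZMod 3) = ((chiNegThree n : ℤ) : ℂ) := by
  rw [chi3D, MulChar.ringHomComp_apply]
  change (((quadraticChar (ZMod 3)) (n : ZMod 3) : ℤ) : ℂ) = _
  congr 1
  have h : ∀ x : ZMod 3, quadraticChar (ZMod 3) x = if x = 1 then 1 else if x = 2 then -1 else 0 := by
    decide
  rw [h, chiNegThree]
  have h1 : ((n : ℕ) : ZMod 3) = ((n % 3 : ℕ) : ZMod 3) := (ZMod.natCast_mod n 3).symm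
  have h2 : n % 3 < 3 := Nat.mod_lt _ (by norm_num)
  rw [h1]
  interval_cases n % 3 <;> decide

theorem changeLevel_natCast {N : ℕ} (h3 : 3 ∣ N) {p : ℕ} (hp : p.Prime) (hpN : ¬ p ∣ N) :
    (DirichletCharacter.changeLevel h3 chi3D) (p : ZMod N) = ((chiNegThree p : ℤ) : ℂ) := by
  have hco : IsCoprime ((p : ℕ) : ℤ) (N : ℤ) := by
    rw [Nat.isCoprime_iff_coprime]
    exact (Nat.Prime.coprime_iff_not_dvd hp).mpr hpN
  have h := DirichletCharacter.changeLevel_eq_cast_of_dvd' chi3D h3 hco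
  rw [Int.cast_natCast, Int.cast_natCast, chi3D_natCast] at h
  exact h

/-- **Comparison in characteristic zero**, for the character `χ₋₃`. -/
theorem exists_emb' (ρ : Γℚ →* GL (Fin 2) (ZMod 3)) (hρ : Continuous ρ)
    (hsurj : Function.Surjective ρ) (Ψ : GL (Fin 2) (ZMod 3) →* GL (Fin 2) (ℤ√(-2)))
    (hΨ : ∀ g, Matrix.GeneralLinearGroup.map red (Ψ g) = g)
    {N : ℕ} [NeZero N] (h3 : 3 ∣ N) (f : CuspForm (Gamma1 N) 1)
    (hf₁ : ModularFormClass.qCoeff f 1 = 1)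
    (hT : ∀ p : ℕ, p.Prime → ¬ p ∣ N → ∀ n : ℕ,
        ModularFormClass.qCoeff f (p * n) +
            ((chiNegThree p : ℤ) : ℂ) *
              (if p ∣ n then ModularFormClass.qCoeff f (n / p) else 0) =
          ModularFormClass.qCoeff f p * ModularFormClass.qCoeff f n)
    (T : Finset ℕ)
    (hrel : ∀ p : ℕ, p.Prime → p ∉ T → ¬ p ∣ N → ∀ A : ValuationSubring (AlgebraicClosure ℚ),
      A.LiesOverPrime p → ∀ σ : Γℚ, A.IsFrobeniusAt σ p →
        Matrix.GeneralLinearGroup.det (ρ σ) = 1 → (ρ σ) ^ 4 = 1 →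
        ModularFormClass.qCoeff f p = (trQ (ρ σ) : ℂ)) :
    ∃ ι : ℤ√(-2) →+* ℂ, ∀ p : ℕ, p.Prime → ¬ p ∣ N →
      ∀ A : ValuationSubring (AlgebraicClosure ℚ), A.LiesOverPrime p →
        ∀ σ : Γℚ, A.IsFrobeniusAt σ p →
          ModularFormClass.qCoeff f p =
            ι ((Ψ (ρ σ) : GL (Fin 2) (ℤ√(-2))) : Matrix (Fin 2) (Fin 2) (ℤ√(-2))).trace :=
  exists_emb ρ hρ hsurj Ψ hΨ (DirichletCharacter.changeLevel h3 chi3D) f hf₁
    (fun p hp hpN n => by rw [changeLevel_natCast h3 hp hpN]; exact hT p hp hpN n) T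
    (fun p hp hpT hpN A hA σ hσ hQ => by
      obtain ⟨h1, h2⟩ := mem_Q8_iff.mp hQ
      exact hrel p hp hpT hpN A hA σ hσ h1 h2)

end Fermat.Agent.LTG.Cmp
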