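import Fermat.Agent.LT.K.Defs
import Fermat.Agent.LT.K.GL23

/-!
# LTG: the general octahedral case of Langlands–Tunnell (statement S47): interfaces

* `IsOctaG ρ` : the hypotheses on `ρ : Γℚ → GL₂(𝔽₃)`: only a condition on inertia outside `2, 3`
  which can be achieved by a quadratic twist;
* `LTCoreG` : the output of the trace formula part.
(helper58)
-/

set_option autoImplicit false

open WeierstrassCurve CongruenceSubgroup ModularFormClass Fermat.Agent.LT.K
open scoped MatrixGroups ModularForm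

namespace Fermat.Agent.LTG

local notation "Γℚ" => (AlgebraicClosure ℚ ≃ₐ[ℚ] AlgebraicClosure ℚ)

/-- The hypotheses on the residual representation, general case. -/
structure IsOctaG (ρ : Γℚ →* GL (Fin 2) (ZMod 3)) : Prop where
  cont : Continuous ρ
  surj : Function.Surjective ρ
  det : ∀ σ : Γℚ, Matrix.GeneralLinearGroup.det (ρ σ) = modThreeCyclotomicChar σ
  /-- if inertia at a prime `q ≥ 5` contains `-1` then it contains an element of order four -/
  good : ∀ q : ℕ, q.Prime → 5 ≤ q → ∀ A : ValuationSubring (AlgebraicClosure ℚ),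
    A.LiesOverPrime q → ∀ σ ∈ A.inertiaSubgroupIn ℚ, ρ σ = -1 →
      ∃ τ ∈ A.inertiaSubgroupIn ℚ, ρ τ * ρ τ = -1

/-- The statement delivered by the trace formula: a cusp form of weight one on `Γ₁(N)` with
character `χ₋₃`, which is an eigenform for the primes `p` which split in the cubic extension
`L / K`. -/
def LTCoreG : Prop :=
  ∀ ρ : Γℚ →* GL (Fin 2) (ZMod 3), IsOctaG ρ →
    ∃ (N : ℕ) (f : CuspForm (Gamma1 N) 1) (T : Finset ℕ),
      N ≠ 0 ∧ 3 ∣ N ∧ f ≠ 0 ∧
      (∀ γ ∈ Gamma0 N, (⇑f ∣[(1 : ℤ)] γ) = ((chi3 (γ 1 1) : ℤ) : ℂ) • ⇑f) ∧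
      ∀ p : ℕ, p.Prime → p ∉ T →
        ∀ A : ValuationSubring (AlgebraicClosure ℚ), A.LiesOverPrime p →
          ∀ σ : Γℚ, A.IsFrobeniusAt σ p →
            Matrix.GeneralLinearGroup.det (ρ σ) = 1 → (ρ σ) ^ 4 = 1 →
            ∀ n : ℕ, qCoeff ⇑f (p * n) + (if p ∣ n then qCoeff ⇑f (n / p) else 0) =
              (trQ (ρ σ) : ℂ) * qCoeff ⇑f n

end Fermat.Agent.LTG
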