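import Mathlib
import Fermat.Prelude.Def_LanglandsTunnell_WeightOneRealizationCarriers
import Fermat.Prelude.Def_FLTPrelim_Ramification
import Fermat.Agent.FrobExists
import Fermat.Agent.S46.Eig

/-!
# S47: the realisation of a weight one eigenform over `ℤ[√-2]`

From a weight one form `g` on `Γ₁(M)`, with Hecke relations and Frobenius traces
`tr Ψ(ρ(σ))` at almost all primes, to the statement S47: `g` is depleted at the bad primes.
-/

set_option autoImplicit false

noncomputable section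

open CongruenceSubgroup ModularFormClass EisensteinWeightOne WeierstrassCurve
open Fermat.Agent.S46Eig
open scoped MatrixGroups

namespace Fermat.Agent.LTG.Real

local notation "Γℚ" => (AlgebraicClosure ℚ ≃ₐ[ℚ] AlgebraicClosure ℚ)

/-- An eigensystem is determined by its values at the primes. -/
theorem eigensystem_unique {R : Type*} [CommRing R] {e a b : ℕ → R}
    (ha : FormalHecke.IsEigensystem e a) (hb : FormalHecke.IsEigensystem e b) (h0 : a 0 = b 0)
    (h : ∀ p : ℕ, p.Prime → a p = b p) (n : ℕ) : a n = b n := by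
  induction n using Nat.strong_induction_on with
  | _ n ih =>
    rcases Nat.eq_zero_or_pos n with rfl | hn
    · exact h0
    rcases Nat.lt_or_ge 1 n with h1 | h1
    · obtain ⟨p, hp, m, rfl⟩ := Nat.exists_prime_and_dvd h1.ne'
      have hm : 0 < m := Nat.pos_of_mul_pos_left hn
      have hlt : m < p * m := by nlinarith [hp.two_le]
      have e1 := ha.2 p hp m
      have e2 := hb.2 p hp m
      rw [eq_sub_of_add_eq e1, eq_sub_of_add_eq e2, ih m hlt, h p hp]
      congr 2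
      split_ifs with hd
      · exact ih _ (lt_of_le_of_lt (Nat.div_le_self m p) hlt)
      · rfl
    · have : n = 1 := by omega
      rw [this, ha.1, hb.1]

/-- Ring maps out of `ℤ[√-2]` into `ℂ` are injective. -/
theorem injective_hom (ι : ℤ√(-2) →+* ℂ) : Function.Injective ι := by
  have h := Zsqrtd.lift_injective (R := ℂ) (Zsqrtd.lift.symm ι) (fun n hn => by nlinarith [mul_self_nonneg n])
  rwa [Equiv.apply_symm_apply] at h

/-- Multiplication of the coefficients by a periodic function. -/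
def Periodic : Prop :=
  ∀ (M q : ℕ) [NeZero M] [NeZero q] (w : ZMod q → ℂ) (f : CuspForm (Gamma1 M) 1),
    ∃ g : CuspForm (Gamma1 (q ^ 2 * M)) 1, ∀ n : ℕ, qCoeff ⇑g n = w (n : ZMod q) * qCoeff ⇑f n

/-- Depletion at a finite set of primes. -/
def Depletion : Prop :=
  ∀ (M : ℕ), M ≠ 0 → ∀ (f : CuspForm (Gamma1 M) 1) (S : Finset ℕ), (∀ q ∈ S, q.Prime) →
    ∃ (N : ℕ) (g : CuspForm (Gamma1 N) 1), N ≠ 0 ∧ (∀ q ∈ S, q ∣ N) ∧
      (∀ q : ℕ, q.Prime → q ∣ N → q ∣ M ∨ q ∈ S) ∧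
      ∀ n, qCoeff ⇑g n = if ∀ q ∈ S, ¬ q ∣ n then qCoeff ⇑f n else 0

theorem depletion_of_periodic (hP : Periodic) : Depletion := by
  intro M hM f S hS
  classical
  induction S using Finset.induction_on with
  | empty => exact ⟨M, f, hM, by simp, fun q _ h => Or.inl h, by simp⟩
  | insert q S hqS ih =>
    obtain ⟨N, g, hN, h1, h2, h3⟩ := ih fun p hp => hS p (Finset.mem_insert_of_mem hp)
    have hq : q.Prime := hS q (Finset.mem_insert_self _ _)
    have i1 : NeZero N := ⟨hN⟩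
    have i2 : NeZero q := ⟨hq.ne_zero⟩
    obtain ⟨g', hg'⟩ := hP N q (fun x => if x = 0 then 0 else 1) g
    refine ⟨q ^ 2 * N, g', mul_ne_zero (pow_ne_zero 2 hq.ne_zero) hN, ?_, ?_, fun n => ?_⟩
    · intro p hp
      rcases Finset.mem_insert.mp hp with rfl | hp
      · exact Dvd.dvd.mul_right (dvd_pow_self p two_ne_zero) N
      · exact (h1 p hp).mul_left _
    · intro p hp hpN
      rcases (hp.dvd_mul).mp hpN with h | h
      · right
        rw [(Nat.prime_dvd_prime_iff_eq hp hq).mp (hp.dvd_of_dvd_pow h)]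
        exact Finset.mem_insert_self _ _
      · rcases h2 p hp h with h | h
        · exact Or.inl h
        · exact Or.inr (Finset.mem_insert_of_mem h)
    · rw [hg' n, h3 n]
      by_cases hqn : q ∣ n
      · rw [if_pos ((ZMod.natCast_eq_zero_iff n q).mpr hqn), zero_mul,
          if_neg fun h => h q (Finset.mem_insert_self _ _) hqn]
      · rw [if_neg fun h => hqn ((ZMod.natCast_eq_zero_iff n q).mp h), one_mul]
        refine if_congr ⟨fun h p hp => ?_, fun h p hp => h p (Finset.mem_insert_of_mem hp)⟩ rfl rfl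
        rcases Finset.mem_insert.mp hp with rfl | hp
        · exact hqn
        · exact h p hp

/-- **S47 from a weight one form with the Hecke relations and the Frobenius traces at almost all
primes.** -/
theorem exists_realized_of_form (hD : Depletion)
    (ρ : Γℚ →* GL (Fin 2) (ZMod 3)) (Ψ : GL (Fin 2) (ZMod 3) →* GL (Fin 2) (ℤ√(-2)))
    {M : ℕ} (hM : M ≠ 0) (g : CuspForm (Gamma1 M) 1) (ι : ℤ√(-2) →+* ℂ) (T : Finset ℕ)
    (h1 : qCoeff ⇑g 1 = 1)
    (hT : ∀ p : ℕ, p.Prime → ¬ p ∣ M → p ∉ T → ∀ n : ℕ,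
      qCoeff ⇑g (p * n) + ((chiNegThree p : ℤ) : ℂ) * (if p ∣ n then qCoeff ⇑g (n / p) else 0) =
        qCoeff ⇑g p * qCoeff ⇑g n)
    (hF : ∀ p : ℕ, p.Prime → ¬ p ∣ M → p ∉ T →
      ∀ A : ValuationSubring (AlgebraicClosure ℚ), A.LiesOverPrime p →
        ∀ σ : Γℚ, A.IsFrobeniusAt σ p → qCoeff ⇑g p =
          ι ((Ψ (ρ σ) : GL (Fin 2) (ℤ√(-2))) : Matrix (Fin 2) (Fin 2) (ℤ√(-2))).trace) :
    ∃ (N : ℕ) (_ : NeZero N) (b : ℕ → ℤ√(-2)),
      FormalHecke.IsEigensystem
        (fun ℓ => if ℓ ∣ N then 0 else ((chiNegThree ℓ : ℤ) : ℤ√(-2))) b ∧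
      CuspForm.IsWeightOneChiNegThreeRealized N b ∧
      ∀ p : ℕ, p.Prime → ¬ p ∣ 3 * N →
        ∀ A : ValuationSubring (AlgebraicClosure ℚ), A.LiesOverPrime p →
          ∀ σ : Γℚ, A.IsFrobeniusAt σ p →
            b p = ((Ψ (ρ σ) : GL (Fin 2) (ℤ√(-2))) : Matrix (Fin 2) (Fin 2) (ℤ√(-2))).trace := by
  classical
  obtain ⟨S, hS⟩ : ∃ S : Finset ℕ, S = (3 * M).primeFactors ∪ T.filter Nat.Prime := ⟨_, rfl⟩
  have hSp : ∀ q ∈ S, q.Prime := by
    intro q hq
    rw [hS, Finset.mem_union, Finset.mem_filter] at hq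
    exact hq.elim (fun h => Nat.prime_of_mem_primeFactors h) fun h => h.2
  have hSM : ∀ q : ℕ, q.Prime → q ∣ 3 * M → q ∈ S := by
    intro q hq h
    rw [hS, Finset.mem_union]
    exact Or.inl (Nat.mem_primeFactors.mpr ⟨hq, h, mul_ne_zero (by norm_num) hM⟩)
  have hST : ∀ q : ℕ, q.Prime → q ∈ T → q ∈ S := by
    intro q hq h
    rw [hS, Finset.mem_union, Finset.mem_filter]
    exact Or.inr ⟨h, hq⟩
  have h3S : 3 ∈ S := hSM 3 Nat.prime_three (dvd_mul_right 3 M)
  obtain ⟨N, f, hN, hSN, hNS, hf⟩ := hD M hM g S hSp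
  have hN' : ∀ q : ℕ, q.Prime → (q ∣ N ↔ q ∈ S) := fun q hq =>
    ⟨fun h => (hNS q hq h).elim (fun h => hSM q hq (h.mul_left 3)) id, hSN q⟩
  have i1 : NeZero N := ⟨hN⟩
  -- the values at the primes
  have hval : ∀ p : ℕ, ∃ x : ℤ√(-2), p.Prime → qCoeff ⇑f p = ι x := by
    intro p
    by_cases hp : p.Prime
    · by_cases hpN : p ∣ N
      · refine ⟨0, fun _ => ?_⟩
        rw [hf p, if_neg fun h => h p ((hN' p hp).mp hpN) dvd_rfl, map_zero]
      · have hpS : p ∉ S := fun h => hpN ((hN' p hp).mpr h)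
        obtain ⟨A, hA⟩ := FrobExists.exists_liesOverPrime (AlgebraicClosure ℚ) hp
        obtain ⟨σ, hσ⟩ := FrobExists.exists_isFrobeniusAt A hp hA
        refine ⟨((Ψ (ρ σ) : GL (Fin 2) (ℤ√(-2))) : Matrix (Fin 2) (Fin 2) (ℤ√(-2))).trace,
          fun _ => ?_⟩
        rw [hf p, if_pos fun q hq h => hpS ((Nat.prime_dvd_prime_iff_eq (hSp q hq) hp).mp h ▸ hq)]
        exact hF p hp (fun h => hpS (hSM p hp (h.mul_left 3))) (fun h => hpS (hST p hp h)) A hA σ hσ
    · exact ⟨0, fun h => absurd h hp⟩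
  choose c hc using hval
  obtain ⟨e, he⟩ : ∃ e : ℕ → ℤ√(-2), e = fun ℓ =>
    if ℓ ∣ N then 0 else ((chiNegThree ℓ : ℤ) : ℤ√(-2)) := ⟨_, rfl⟩
  have hb := isEigensystem_eigSeq e c
  -- the coefficients of `f` form an eigensystem
  have hfe : FormalHecke.IsEigensystem (fun ℓ => ι (e ℓ)) (fun n => qCoeff ⇑f n) := by
    refine ⟨?_, fun ℓ hℓ n => ?_⟩
    · show qCoeff ⇑f 1 = 1
      rw [hf 1, if_pos fun q hq h => (hSp q hq).one_lt.ne' (Nat.dvd_one.mp h), h1]
    · show qCoeff ⇑f (ℓ * n) + ι (e ℓ) * (if ℓ ∣ n then qCoeff ⇑f (n / ℓ) else 0) =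
        qCoeff ⇑f ℓ * qCoeff ⇑f n
      by_cases hℓN : ℓ ∣ N
      · have hℓS : ℓ ∈ S := (hN' ℓ hℓ).mp hℓN
        have z1 : qCoeff ⇑f (ℓ * n) = 0 := by
          rw [hf (ℓ * n), if_neg fun h => h ℓ hℓS (dvd_mul_right ℓ n)]
        have z2 : qCoeff ⇑f ℓ = 0 := by
          rw [hf ℓ, if_neg fun h => h ℓ hℓS dvd_rfl]
        rw [z1, z2, he]
        simp [hℓN]
      · have hℓS : ℓ ∉ S := fun h => hℓN ((hN' ℓ hℓ).mpr h)
        have hne : ∀ q ∈ S, ¬ q ∣ ℓ := fun q hq h =>
          hℓS ((Nat.prime_dvd_prime_iff_eq (hSp q hq) hℓ).mp h ▸ hq)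
        have hmul : ∀ m : ℕ, (∀ q ∈ S, ¬ q ∣ ℓ * m) ↔ ∀ q ∈ S, ¬ q ∣ m := by
          intro m
          refine ⟨fun h q hq h' => h q hq (h'.mul_left ℓ), fun h q hq h' => ?_⟩
          rcases ((hSp q hq).dvd_mul).mp h' with h'' | h''
          · exact hne q hq h''
          · exact h q hq h''
        have hrel := hT ℓ hℓ (fun h => hℓS (hSM ℓ hℓ (h.mul_left 3))) (fun h => hℓS (hST ℓ hℓ h)) n
        have heℓ : ι (e ℓ) = ((chiNegThree ℓ : ℤ) : ℂ) := by
          rw [he]
          simp [hℓN]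
        rw [heℓ, hf ℓ, if_pos hne, hf (ℓ * n), hf n]
        by_cases hn : ∀ q ∈ S, ¬ q ∣ n
        · rw [if_pos ((hmul n).mpr hn), if_pos hn, ← hrel]
          congr 2
          split_ifs with hd
          · rw [hf, if_pos]
            obtain ⟨m, rfl⟩ := hd
            rw [Nat.mul_div_cancel_left m hℓ.pos]
            exact (hmul m).mp hn
          · rfl
        · rw [if_neg fun h => hn ((hmul n).mp h), if_neg hn, mul_zero, zero_add]
          split_ifs with hd
          · rw [hf, if_neg, mul_zero]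
            obtain ⟨m, rfl⟩ := hd
            rw [Nat.mul_div_cancel_left m hℓ.pos]
            exact fun h => hn ((hmul m).mpr h)
          · rw [mul_zero]
  have hbe : FormalHecke.IsEigensystem (fun ℓ => ι (e ℓ)) (fun n => ι (eigSeq e c n)) := by
    refine ⟨?_, fun ℓ hℓ n => ?_⟩
    · show ι (eigSeq e c 1) = 1
      rw [eigSeq_one, map_one]
    · have h := congrArg ι (hb.2 ℓ hℓ n)
      rw [map_add, map_mul, map_mul] at h
      rw [← h]
      congr 2
      split_ifs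
      · rfl
      · rw [map_zero]
  have hcoef : ∀ n, qCoeff ⇑f n = ι (eigSeq e c n) := by
    refine eigensystem_unique hfe hbe ?_ fun p hp => ?_
    · show qCoeff ⇑f 0 = ι (eigSeq e c 0)
      rw [hf 0, if_neg fun h => h 3 h3S (dvd_zero 3), eigSeq_zero, map_zero]
    · show qCoeff ⇑f p = ι (eigSeq e c p)
      rw [eigSeq_prime e c hp]
      exact hc p hp
  refine ⟨N, i1, eigSeq e c, ?_, ⟨ι, f, hcoef⟩, ?_⟩
  · rw [he] at hb ⊢
    exact hb
  · intro p hp hpN A hA σ hσ
    have hpS : p ∉ S := fun h => hpN (((hN' p hp).mpr h).mul_left 3)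
    apply injective_hom ι
    rw [← hcoef p, hf p,
      if_pos fun q hq h => hpS ((Nat.prime_dvd_prime_iff_eq (hSp q hq) hp).mp h ▸ hq)]
    exact hF p hp (fun h => hpS (hSM p hp (h.mul_left 3))) (fun h => hpS (hST p hp h)) A hA σ hσ

end Fermat.Agent.LTG.Real
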