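import Fermat.Agent.LTG.Defs
import Fermat.Agent.LTG.Real
import Fermat.Agent.LTG.Twist
import Fermat.Agent.LTG.Cmp1
import Fermat.Agent.LTG.W1.Main
import Fermat.Agent.LTG.W1.Per

/-!
# S47 from `LTCoreG`: assembly

`s47_of` : the statement S47 from the trace formula part `LTCoreG`, with the twisting lemma
(`LTG/Twist`), the eigenform lemma (`LTG/W1`), the comparison in characteristic zero (`LTG/Cmp1`)
and the realisation over `ℤ[√-2]` (`LTG/Real`).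
-/

set_option autoImplicit false

open WeierstrassCurve CongruenceSubgroup ModularFormClass Fermat.Agent.LT.K EisensteinWeightOne
open FLT.ExplicitLift
open scoped MatrixGroups ModularForm

namespace Fermat.Agent.LTG

local notation "Γℚ" => (AlgebraicClosure ℚ ≃ₐ[ℚ] AlgebraicClosure ℚ)

/-- The Jacobi symbol as a function on `ℤ/m`. -/
noncomputable def jac (m : ℕ) (x : ZMod m) : ℂ := ((jacobiSym (x.val : ℤ) m : ℤ) : ℂ)

theorem jac_natCast {m : ℕ} (n : ℕ) : jac m (n : ZMod m) = ((jacobiSym n m : ℤ) : ℂ) := by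
  rw [jac, ZMod.val_natCast, Int.natCast_mod, ← jacobiSym.mod_left]

/-- **S47 from `LTCoreG`.** -/
theorem s47_of (hcore : LTCoreG)
    (ρ : Γℚ →* GL (Fin 2) (ZMod 3)) (hρ : Continuous ρ) (hsurj : Function.Surjective ρ)
    (hdet : ∀ σ : Γℚ, Matrix.GeneralLinearGroup.det (ρ σ) = modThreeCyclotomicChar σ)
    (Ψ : GL (Fin 2) (ZMod 3) →* GL (Fin 2) (ℤ√(-2)))
    (hΨ : ∀ g, Matrix.GeneralLinearGroup.map red (Ψ g) = g) :
    ∃ (N : ℕ) (_ : NeZero N) (b : ℕ → ℤ√(-2)),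
      FormalHecke.IsEigensystem
        (fun ℓ => if ℓ ∣ N then 0 else ((chiNegThree ℓ : ℤ) : ℤ√(-2))) b ∧
      CuspForm.IsWeightOneChiNegThreeRealized N b ∧
      ∀ p : ℕ, p.Prime → ¬ p ∣ 3 * N →
        ∀ A : ValuationSubring (AlgebraicClosure ℚ), A.LiesOverPrime p →
          ∀ σ : Γℚ, A.IsFrobeniusAt σ p →
            b p = ((Ψ (ρ σ) : GL (Fin 2) (ℤ√(-2))) : Matrix (Fin 2) (Fin 2) (ℤ√(-2))).trace := by
  obtain ⟨m, χ, hsq, -, -, -, hχ, hoct⟩ := exists_twist ρ hρ hsurj hdet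
  have hm : m ≠ 0 := hsq.ne_zero
  have h4 := twist_pow_four ρ χ
  have htr := trQ_twist ρ χ
  obtain ⟨ρ', hρ'⟩ : ∃ ρ' : Γℚ →* GL (Fin 2) (ZMod 3), ρ' = twist ρ χ := ⟨_, rfl⟩
  rw [← hρ'] at h4 htr hoct
  obtain ⟨N, f, T, hN, h3N, hf0, hchar, hrel⟩ := hcore ρ' hoct
  obtain ⟨g, hg1, hgT, hgP⟩ :=
    W1.exists_eigenform_of_core ρ' hoct.det f T hN h3N hf0 hchar hrel
  have i1 : NeZero N := ⟨hN⟩
  have i2 : NeZero m := ⟨hm⟩
  obtain ⟨g', hg'⟩ := W1.periodic N m (jac m) g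
  simp only [jac_natCast] at hg'
  have hM : m ^ 2 * N ≠ 0 := mul_ne_zero (pow_ne_zero 2 hm) hN
  have i3 : NeZero (m ^ 2 * N) := ⟨hM⟩
  have hpm : ∀ p : ℕ, ¬ p ∣ m ^ 2 * N → ¬ p ∣ m := fun p h h' =>
    h ((h'.trans (dvd_pow_self m two_ne_zero)).mul_right N)
  have hpN : ∀ p : ℕ, ¬ p ∣ m ^ 2 * N → ¬ p ∣ N := fun p h h' => h (h'.mul_left _)
  have hJ : ∀ p : ℕ, p.Prime → ¬ p ∣ m →
      ((jacobiSym p m : ℤ) : ℂ) * ((jacobiSym p m : ℤ) : ℂ) = 1 := by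
    intro p hp hpm
    have h1 : (jacobiSym p m : ℤ) * jacobiSym p m = 1 := by
      rw [← sq]
      refine jacobiSym.sq_one ?_
      rw [Int.gcd_natCast_natCast]
      exact (Nat.Prime.coprime_iff_not_dvd hp).mpr hpm
    exact_mod_cast h1
  have hg'1 : qCoeff ⇑g' 1 = 1 := by
    rw [hg' 1, hg1, mul_one, Nat.cast_one, jacobiSym.one_left, Int.cast_one]
  have hg'T : ∀ p : ℕ, p.Prime → ¬ p ∣ m ^ 2 * N → ∀ n : ℕ,
      qCoeff ⇑g' (p * n) +
          ((chiNegThree p : ℤ) : ℂ) * (if p ∣ n then qCoeff ⇑g' (n / p) else 0) =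
        qCoeff ⇑g' p * qCoeff ⇑g' n := by
    intro p hp hpM n
    have h1 := hgT p hp (hpN p hpM) n
    rw [W1.chi3_eq_chiNegThree] at h1
    have hJ' := hJ p hp (hpm p hpM)
    rw [hg' (p * n), hg' p, hg' n]
    push_cast
    rw [jacobiSym.mul_left]
    push_cast
    have h2 : (if p ∣ n then qCoeff ⇑g' (n / p) else 0) =
        ((jacobiSym p m : ℤ) : ℂ) * ((jacobiSym n m : ℤ) : ℂ) *
          (if p ∣ n then qCoeff ⇑g (n / p) else 0) := by
      split_ifs with hd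
      · obtain ⟨k, rfl⟩ := hd
        rw [Nat.mul_div_cancel_left k hp.pos, hg' k]
        push_cast
        rw [jacobiSym.mul_left]
        push_cast
        rw [← mul_assoc, hJ', one_mul]
      · rw [mul_zero]
    rw [h2]
    linear_combination ((jacobiSym p m : ℤ) : ℂ) * ((jacobiSym n m : ℤ) : ℂ) * h1
  obtain ⟨ι, hι⟩ := Cmp.exists_emb' ρ hρ hsurj Ψ hΨ (h3N.mul_left (m ^ 2)) g' hg'1 hg'T T
    (by
      intro p hp hpT hpM A hA σ hσ hd h4'
      have hd' : Matrix.GeneralLinearGroup.det (ρ' σ) = 1 := by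
        rw [hoct.det σ, ← hdet σ, hd]
      have h1 := hgP p hp (hpN p hpM) hpT A hA σ hσ hd' (by rw [h4 σ, h4'])
      rw [hg' p, h1, htr σ, hχ p hp (hpm p hpM) A hA σ hσ]
      have hJ' := hJ p hp (hpm p hpM)
      push_cast
      rw [← mul_assoc, hJ', one_mul])
  exact Real.exists_realized_of_form W1.depletion ρ Ψ hM g' ι ∅ hg'1
    (fun p hp hpM _ n => hg'T p hp hpM n) (fun p hp hpM _ A hA σ hσ => hι p hp hpM A hA σ hσ)

end Fermat.Agent.LTG
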