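import Fermat.Agent.LT.Top.LevM

/-!
# LT (general case): the integer `M` attached to an arbitrary level structure

`exists_levelDvd : ∃ M ≠ 0, LevelDvd D M` for every datum `D`. (helper47)
-/

set_option autoImplicit false

open NumberField IsDedekindDomain Matrix
open Fermat.LT Fermat.Agent.LT.D Fermat.Agent.LT.K Fermat.Agent.LT.Top
open Fermat.Agent.LT.Top.LevM

namespace Fermat.Agent.LTG

variable {F : Type} [Field F] [NumberField F]

/-- **Every level structure divides a nonzero integer.** -/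
theorem exists_levelDvd (D : Datum F) : ∃ M : ℕ, M ≠ 0 ∧ LevelDvd D M := by
  classical
  choose qb hqb hqbm using fun v : Pl F => exists_prime_below v
  -- a bound for the conductor exponents
  obtain ⟨n0, hn0⟩ : ∃ n0 : ℕ, ∀ v : Pl F, D.n v ≤ n0 := by
    obtain ⟨n0, h⟩ := (D.n_fin.image D.n).bddAbove
    refine ⟨n0, fun v => ?_⟩
    by_cases hv : D.n v = 0
    · rw [hv]; exact Nat.zero_le _
    · exact h ⟨v, hv, rfl⟩
  set Q : Finset ℕ := D.n_fin.toFinset.image qb with hQ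
  set M : ℕ := (∏ q ∈ Q, q) ^ (n0 + 1) with hM
  have hQ0 : ∏ q ∈ Q, q ≠ 0 := by
    refine Finset.prod_ne_zero_iff.mpr fun q hq => ?_
    obtain ⟨v, -, rfl⟩ := Finset.mem_image.mp hq
    exact (hqb v).ne_zero
  have hMq : ∀ v : Pl F, D.n v ≠ 0 → av v (M : F) ≤ (qv v)⁻¹ ^ (n0 + 1) := by
    intro v hv
    have hq : qb v ∈ Q := Finset.mem_image.mpr ⟨v, D.n_fin.mem_toFinset.mpr hv, rfl⟩
    obtain ⟨m, hm⟩ : qb v ∣ ∏ q ∈ Q, q := Finset.dvd_prod_of_mem _ hq
    rw [hM, hm, Nat.cast_pow, map_pow]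
    refine pow_le_pow_left₀ ((av v).nonneg _) ?_ _
    rw [Nat.cast_mul, map_mul]
    calc av v (qb v : F) * av v (m : F) ≤ av v (qb v : F) * 1 :=
          mul_le_mul_of_nonneg_left (av_nat_le_one v m) ((av v).nonneg _)
      _ ≤ _ := by rw [mul_one]; exact av_nat_le_of_mem (hqbm v)
  have h01 : ∀ v : Pl F, 0 ≤ (qv v)⁻¹ := fun v => inv_nonneg.mpr (qv_pos v).le
  have h11 : ∀ v : Pl F, (qv v)⁻¹ < 1 := fun v => inv_lt_one_of_one_lt₀ (one_lt_qv v)
  refine ⟨M, pow_ne_zero _ hQ0, ⟨?_, ?_⟩⟩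
  · intro w hw
    by_contra hn
    have h5 := hMq w hn
    rw [hw] at h5
    exact absurd h5 (not_le.mpr (pow_lt_one₀ (h01 w) (h11 w) (Nat.succ_ne_zero _)))
  · intro w g hg hgn
    by_cases hn : D.n w = 0
    · rw [D.toLevel.H_eq hn]
      exact intGL_le_stdH w hg
    · refine mem_H_of_le (D.cong_le w) ?_ hg hgn
      refine (hMq w hn).trans ?_
      exact pow_le_pow_of_le_one (h01 w) (h11 w).le ((hn0 w).trans (Nat.le_succ _))

end Fermat.Agent.LTG
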