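import Fermat.Agent.LTG.PiLG
import Fermat.Agent.LTG.K.RamBase
import Fermat.Agent.LTG.Top.IfaceL

/-!
# LTG: the theta form on `L` for `R : OctaG`

* `finite_inertia` : finitely many places of a number field have a nontrivial inertia group;
* `finite_bad` : finitely many places of `L` ramify in `N`;
* `OctaG.piL` : `PiL` for `OctaG`, with a depth divisible by `m`; `piL_G` : the case `m = 3`.
-/

set_option autoImplicit false

open NumberField IsDedekindDomain Matrix Module WithZero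
open Fermat.LT Fermat.Agent.LT.B Fermat.Agent.LT.D Fermat.Agent.LT.CTree
open Fermat.Agent.LT.I Fermat.Agent.LT.CArch Fermat.Agent.LT.Top Fermat.Agent.CFT
open Fermat.Agent.LT.K

namespace Fermat.Agent.LTG

theorem finite_inertia {N : Type*} [Field N] [NumberField N] {G : Type*} [Group G] [Finite G]
    [MulSemiringAction G N] [FaithfulSMul G N] :
    {u : HeightOneSpectrum (𝓞 N) | u.asIdeal.inertia G ≠ ⊥}.Finite := by
  have h1 : ∀ g : G, g ≠ 1 → ∃ x : 𝓞 N, g • x - x ≠ 0 := by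
    intro g hg
    by_contra h
    push Not at h
    apply hg
    apply FaithfulSMul.eq_of_smul_eq_smul (M := G) (α := N)
    intro y
    obtain ⟨a, b, hb, rfl⟩ := IsFractionRing.div_surjective (A := 𝓞 N) y
    have hcoe : ∀ a : 𝓞 N, g • algebraMap (𝓞 N) N a = algebraMap (𝓞 N) N a := by
      intro a
      have h2 := congrArg (algebraMap (𝓞 N) N) (sub_eq_zero.1 (h a))
      rw [algebraMap.smul'] at h2
      exact h2
    rw [one_smul, smul_div₀', hcoe, hcoe]
  choose x hx using h1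
  refine (Set.finite_iUnion fun g : G => Set.finite_iUnion fun hg : g ≠ 1 =>
    Ideal.finite_factors (R := 𝓞 N) (I := Ideal.span {g • x g hg - x g hg}) (by
      rw [Ne, Ideal.zero_eq_bot, Ideal.span_singleton_eq_bot]; exact hx g hg)).subset ?_
  intro u hu
  obtain ⟨g, hg1⟩ := Subgroup.ne_bot_iff_exists_ne_one.1 hu
  have hg1' : (g : G) ≠ 1 := fun h => hg1 (Subtype.ext h)
  refine Set.mem_iUnion.2 ⟨(g : G), Set.mem_iUnion.2 ⟨hg1', ?_⟩⟩
  change u.asIdeal ∣ Ideal.span _
  rw [Ideal.dvd_span_singleton]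
  exact g.2 _

namespace K.OctaG

variable (R : K.OctaG)

/-- finitely many places of `L` ramify in `N` -/
theorem finite_bad {H : Subgroup G3} :
    {w : HeightOneSpectrum (𝓞 (R.fld H)) | (R.ab w).inertia H ≠ ⊥}.Finite := by
  have h1 : {u : HeightOneSpectrum (𝓞 R.N) | u.asIdeal.inertia H ≠ ⊥}.Finite := by
    have : FaithfulSMul H R.N := IsGaloisGroup.faithful (G := H) (A := R.fld H) (B := R.N)
    exact finite_inertia
  refine Set.Finite.subset (h1.image fun u => SUH.below (R.fld H) u) ?_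
  intro w hw
  refine ⟨⟨R.ab w, R.isPrime_ab w, R.ab_ne_bot w⟩, hw, ?_⟩
  apply HeightOneSpectrum.ext
  exact R.under_ab w

/-- **`PiL` for `OctaG`**, with a depth divisible by `m`. -/
theorem piL {m : ℕ} (hm : 0 < m) : ∃ M : ℕ, 1 ≤ M ∧ m ∣ M ∧ ∀ D : Datum R.L,
    (∀ w, (R.ab w).inertia Q8 ≠ ⊥ → D.H w = HT w M ∧ D.n w = max M 1) →
    (∀ w, (R.ab w).inertia Q8 = ⊥ → D.n w = 0) →
    ∃ φ : X D → ℂ, EForm D (fun w => (R.lam w : ℝ)) φ ∧ SType D M φ := by
  have hgal : IsGalois R.L R.N := IsGalois.tower_top_of_isGalois ℚ R.L R.N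
  have hur : ∀ u : Pl R.N, SUH.below R.L u ∉ {w : Pl R.L | (R.ab w).inertia Q8 ≠ ⊥} →
      u.asIdeal.inertia Q8 = ⊥ := by
    intro u hu
    have h1 : (R.ab (SUH.below R.L u)).inertia Q8 = ⊥ := by
      by_contra h2
      exact hu h2
    obtain ⟨h, hh⟩ := R.exists_smul_ab (SUH.below R.L u) u.asIdeal rfl
    rw [hh]
    exact inertia_eq_bot_of_smul h1
  obtain ⟨M₀, h1, h3, h⟩ := piL_abs (L := R.L) (M := R.M) (N := R.N) (G := Q8)
    card_Q8 negQ8_ne Q8_sq R.finrank_LM (R.finite_bad (H := Q8)) hur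
    (fun w => (R.lam w : ℝ)) (by
      intro u hu g hg
      have h1 := R.lam_eq (SUH.below R.L u) u.asIdeal rfl (hur u hu) hg
      rw [h1, trQ]
      refine ⟨?_, ?_, ?_⟩
      · rintro rfl
        rw [if_pos (by rfl)]; norm_num
      · rintro rfl
        have h5 : ((negQ8 : Q8) : G3) ≠ 1 := fun h => negQ8_ne (Subtype.ext h)
        rw [if_neg h5, if_pos (by rfl)]; norm_num
      · intro h3 h4
        have h5 : ((g : Q8) : G3) ≠ 1 := fun h => h3 (Subtype.ext h)
        have h6 : ((g : Q8) : G3) ≠ -1 := fun h => h4 (Subtype.ext h)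
        rw [if_neg h5, if_neg h6]; norm_num) hm
  exact ⟨M₀, h1, h3, fun D hD1 hD2 => h D (fun w hw => hD1 w hw) (fun w hw => hD2 w (by
    by_contra h; exact hw h))⟩

end K.OctaG

end Fermat.Agent.LTG

namespace Fermat.Agent.LT.Top

/-- **`PiL_G R`** for every `R : OctaG`. -/
theorem piL_G (R : Fermat.Agent.LTG.K.OctaG) : PiL_G R := by
  obtain ⟨M, h1, ⟨m, rfl⟩, h⟩ := R.piL (m := 3) (by norm_num)
  exact ⟨m, by omega, fun D hD => h D (fun w hw => hD.ram w hw) (fun w hw => hD.unr w hw)⟩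

end Fermat.Agent.LT.Top
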