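import Fermat.Agent.LTG.Fin
import Fermat.Agent.LTG.Top.DescOf
import Fermat.Agent.LTG.G.Main

/-!
# LTG: `LTCoreG`, unconditionally
-/

set_option autoImplicit false

namespace Fermat.Agent.LTG

/-- **Output of the trace formula part, general case.** -/
theorem ltCoreG : LTCoreG := ltCoreG_of_descGeo LT.G.descGeo_G

end Fermat.Agent.LTG
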