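import Fermat.Agent.LT.Top.PiLMain

/-!
# LTG: the theta form on `L` for an arbitrary quaternion extension `N / L`

* `mulN Z hm` : the data `Z` with a depth multiplied by `m`;
* `exists_setup_dvd` : `exists_setup_abs` with a depth divisible by `m`;
* `piL_abs` : `PiL` for an arbitrary quaternion extension, with a depth divisible by `m`.
-/

set_option autoImplicit false

open NumberField IsDedekindDomain Matrix Module WithZero
open Fermat.LT Fermat.Agent.LT.B Fermat.Agent.LT.D Fermat.Agent.LT.CTree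
open Fermat.Agent.LT.I Fermat.Agent.LT.CArch Fermat.Agent.LT.Top Fermat.Agent.CFT

namespace Fermat.Agent.LTG

section setup

variable {F M : Type} [Field F] [NumberField F] [Field M] [NumberField M] [Algebra F M]

/-- the same data with the depth multiplied by `m` -/
noncomputable def mulN (Z : Setup F M) {m : ℕ} (hm : 0 < m) : Setup F M :=
  { Z with
    N := m * Z.N
    dM_le := fun P hP => (Z.dM_le P hP).trans (by exact_mod_cast Nat.le_mul_of_pos_left _ hm)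
    N1 := 2 * (m * Z.N) + 1
    hN1 := le_rfl
    N2 := 2 * (2 * (m * Z.N) + 1) + Z.e0
    hN2 := Nat.le_add_right _ _
    he0 := Nat.le_add_left _ _ }

variable {L N : Type} [Field L] [NumberField L] [Field N] [NumberField N] [Algebra L M]
  [Algebra L N] [Algebra M N] [IsScalarTower L M N] [IsGalois L N]
  {G : Type} [Group G] [Finite G] [MulSemiringAction G N] [IsGaloisGroup G L N]

/-- `exists_setup_abs` with a depth divisible by `m`. -/
theorem exists_setup_dvd [IsTotallyComplex L] (hcard : Nat.card G = 8) {z : G}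
    (hz : z ≠ 1) (hsq : ∀ g : G, g ≠ 1 → g ≠ z → g * g = z) (hd : finrank L M = 2)
    {S : Set (HeightOneSpectrum (𝓞 L))} (hS : S.Finite)
    (hur : ∀ u : HeightOneSpectrum (𝓞 N), SUH.below L u ∉ S → u.asIdeal.inertia G = ⊥)
    {m : ℕ} (hm : 0 < m) :
    ∃ e0 N0 : ℕ, 1 ≤ e0 ∧ e0 ≤ N0 ∧ m ∣ N0 ∧
      (∀ P : Pl M, SUH.below L P ∈ S → (e0 : ℤ) + dF M P ≤ N0) ∧
      ∀ A : Arch L, ∃ Z : Setup L M, Z.A = A ∧ Z.S = hS.toFinset ∧ Z.e0 = e0 ∧ Z.N = N0 ∧
      ∀ w ∉ S, ∃ u : Pl N, SUH.below L u = w ∧ ∃ g : G, IsArithFrobAt (𝓞 L) g u.asIdeal ∧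
        ((g = 1 ∧ Z.lamZ w = 2) ∨ (g = z ∧ Z.lamZ w = -2) ∨ (g ≠ 1 ∧ g ≠ z ∧ Z.lamZ w = 0)) := by
  obtain ⟨e0, N0, he0, heN, hN, hZ⟩ := exists_setup_abs (L := L) (M := M) (N := N) (G := G)
    hcard hz hsq hd hS hur
  have hle : N0 ≤ m * N0 := Nat.le_mul_of_pos_left _ hm
  refine ⟨e0, m * N0, he0, heN.trans hle, dvd_mul_right _ _,
    fun P hP => (hN P hP).trans (by exact_mod_cast hle), fun A => ?_⟩
  obtain ⟨Z, hA, hZS, h1, h2, -, -, h⟩ := hZ A
  exact ⟨mulN Z hm, hA, hZS, h1, congrArg (m * ·) h2, h⟩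

/-- **`PiL` for a quaternion extension**: `N / L` Galois with group `G` quaternion of order `8`
(`z` the element of order two), `M / L` a quadratic subextension, `S` a finite set of places of `L`
such that `N / L` is unramified outside `S`, `lam w` the trace of Frobenius at `w ∉ S`. -/
theorem piL_abs [IsTotallyComplex L] (hcard : Nat.card G = 8) {z : G}
    (hz : z ≠ 1) (hsq : ∀ g : G, g ≠ 1 → g ≠ z → g * g = z) (hd : finrank L M = 2)
    {S : Set (HeightOneSpectrum (𝓞 L))} (hS : S.Finite)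
    (hur : ∀ u : HeightOneSpectrum (𝓞 N), SUH.below L u ∉ S → u.asIdeal.inertia G = ⊥)
    (lam : Pl L → ℝ)
    (hlam : ∀ u : Pl N, SUH.below L u ∉ S → ∀ g : G, IsArithFrobAt (𝓞 L) g u.asIdeal →
      (g = 1 → lam (SUH.below L u) = 2) ∧ (g = z → lam (SUH.below L u) = -2) ∧
      (g ≠ 1 → g ≠ z → lam (SUH.below L u) = 0))
    {m : ℕ} (hm : 0 < m) :
    ∃ M₀ : ℕ, 1 ≤ M₀ ∧ m ∣ M₀ ∧ ∀ D : Datum L, (∀ w ∈ S, D.H w = HT w M₀ ∧ D.n w = max M₀ 1) →
      (∀ w ∉ S, D.n w = 0) →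
      ∃ φ : X D → ℂ, EForm D lam φ ∧ SType D M₀ φ := by
  classical
  obtain ⟨e0, N0, he0, heN, hmN, hN, hZ⟩ := exists_setup_dvd (L := L) (M := M) (N := N) (G := G)
    hcard hz hsq hd hS hur hm
  refine ⟨2 * N0, by omega, hmN.mul_left 2, fun D hDS hDU => ?_⟩
  obtain ⟨Z, hA, hZS, h1, h2, hlamZ⟩ := hZ D.toArch
  subst h1
  subst h2
  have hmem : ∀ w, w ∈ Z.S ↔ w ∈ S := fun w => by rw [hZS, hS.mem_toFinset]
  have hU : ∀ w ∉ Z.S, D.n w = 0 := fun w hw => hDU w fun h => hw ((hmem w).2 h)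
  have hH : ∀ w ∈ Z.S, D.H w = HT w (2 * Z.N) := fun w hw => (hDS w ((hmem w).1 hw)).1
  have hgood : ∀ w, D.n w = 0 → w ∉ Z.S := by
    intro w hw hwS
    have h3 := (hDS w ((hmem w).1 hwS)).2
    omega
  obtain ⟨f, hf⟩ : ∃ f : XI D.toArch → Y D.toLevel → ℂ,
      NewFn D.toArch D.toLevel Z.S (2 * Z.N) Z.lamZ f := by
    rw [← hA]
    exact Setup.newFn he0 heN (fun P hP => hN P ((hmem _).1 hP)) hU
  obtain ⟨φ, hcusp, hne, hT, hR, hsum⟩ := PiLAbs.exists_form' hf hH le_rfl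
  refine ⟨φ, ⟨hcusp, ⟨fun w hw x => ?_, fun i g hg x => hR i g hg x⟩, hne⟩, ?_⟩
  · have hwS := hgood w hw
    have hwS' : w ∉ S := fun h => hwS ((hmem w).2 h)
    rw [hT w hwS x]
    have key : Z.lamZ w = ((lam w : ℝ) : ℂ) := by
      obtain ⟨u, hu, g, hg, h⟩ := hlamZ w hwS'
      obtain ⟨l1, l2, l3⟩ := hlam u (by rw [hu]; exact hwS') g hg
      rw [hu] at l1 l2 l3
      rcases h with ⟨h, h'⟩ | ⟨h, h'⟩ | ⟨h, h', h''⟩
      · rw [h', l1 h]; norm_num
      · rw [h', l2 h]; norm_num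
      · rw [h'', l3 h h']; norm_num
    rw [key]
  · refine sType_of (D := D) (M := 2 * Z.N) ?_ ?_
    · intro w hw
      exact hH w (by
        by_contra h
        exact hw (hU w h))
    · intro w hw x g
      exact hsum w (by
        by_contra h
        exact hw (hU w h)) x g

end setup

end Fermat.Agent.LTG
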