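import Fermat.Agent.LT.K.GL23
import Fermat.Prelude.Def_LanglandsTunnell_ExplicitLift
import Mathlib.Analysis.Complex.Basic
import Mathlib.Analysis.Real.Sqrt

/-!
# S47: the octahedral lift

`Ψ : GL₂(𝔽₃) → GL₂(ℤ[√-2])` any section of the reduction: its traces.
(helper45)
-/

set_option autoImplicit false

open Matrix FLT.ExplicitLift Fermat.Agent.LT.K

namespace Fermat.Agent.LTG.Cmp

/-- the embedding `√-2 ↦ √2 i` -/
noncomputable def io : ℤ√(-2) →+* ℂ :=
  Zsqrtd.lift ⟨((√2 : ℝ) : ℂ) * Complex.I, by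
    have h : ((√2 : ℝ) : ℂ) * ((√2 : ℝ) : ℂ) = 2 := by
      rw [← Complex.ofReal_mul, Real.mul_self_sqrt (by norm_num)]; norm_num
    calc ((√2 : ℝ) : ℂ) * Complex.I * (((√2 : ℝ) : ℂ) * Complex.I)
        = (((√2 : ℝ) : ℂ) * ((√2 : ℝ) : ℂ)) * (Complex.I * Complex.I) := by ring
      _ = ((-2 : ℤ) : ℂ) := by rw [h, Complex.I_mul_I]; push_cast; ring⟩

theorem io_injective : Function.Injective io :=
  Zsqrtd.lift_injective _ (fun n h => by nlinarith [mul_self_nonneg n])

theorem isDomain_zr : IsDomain (ℤ√(-2)) := io_injective.isDomain io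

section two

variable {R : Type*} [CommRing R] (X : Matrix (Fin 2) (Fin 2) R)

theorem sq_eq : X * X = X.trace • X - X.det • (1 : Matrix (Fin 2) (Fin 2) R) := by
  ext i j
  fin_cases i <;> fin_cases j <;>
    simp [Matrix.mul_apply, Fin.sum_univ_two, Matrix.trace_fin_two, Matrix.det_fin_two] <;> ring

variable {X}

theorem scalar_of_smul [IsDomain R] {s c : R} (hs : s ≠ 0)
    (h : s • X = c • (1 : Matrix (Fin 2) (Fin 2) R)) :
    X 0 1 = 0 ∧ X 1 0 = 0 ∧ X 0 0 = X 1 1 := by
  have h00 := congrFun (congrFun h 0) 0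
  have h01 := congrFun (congrFun h 0) 1
  have h10 := congrFun (congrFun h 1) 0
  have h11 := congrFun (congrFun h 1) 1
  simp only [Matrix.smul_apply, smul_eq_mul, Matrix.one_apply_eq, mul_one, ne_eq, zero_ne_one,
    not_false_eq_true, Matrix.one_apply_ne, mul_zero, mul_eq_zero, one_ne_zero] at h00 h01 h10 h11
  refine ⟨h01.resolve_left hs, h10.resolve_left hs, mul_left_cancel₀ hs (h00.trans h11.symm)⟩

end two

theorem red_units {u : ℤ√(-2)} (hu : IsUnit u) : (u = 1 ∨ u = -1) := by
  have h1 := (Zsqrtd.norm_eq_one_iff (d := -2)).mpr hu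
  have h2 : u.norm = u.re * u.re + 2 * (u.im * u.im) := by rw [Zsqrtd.norm_def]; ring
  have h3 : u.norm = 1 := by
    rcases Int.natAbs_eq u.norm with h | h
    · rw [h, h1]; rfl
    · exfalso
      rw [h1, h2] at h
      push_cast at h
      nlinarith [mul_self_nonneg u.re, mul_self_nonneg u.im]
  rw [h2] at h3
  have him : u.im = 0 := by
    by_contra hne
    have : 1 ≤ u.im * u.im := by
      have := mul_self_pos.mpr hne
      omega
    nlinarith [mul_self_nonneg u.re]
  rw [him] at h3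
  have hre : u.re = 1 ∨ u.re = -1 := by
    have : u.re * u.re = 1 := by linarith
    exact mul_self_eq_one_iff.mp this
  rcases hre with h | h
  · left; exact Zsqrtd.ext h him
  · right
    refine Zsqrtd.ext ?_ ?_
    · rw [h]; rfl
    · rw [him]; rfl

section Psi

variable {Ψ : GL (Fin 2) (ZMod 3) →* GL (Fin 2) (ℤ√(-2))}
  (hΨ : ∀ g, Matrix.GeneralLinearGroup.map red (Ψ g) = g)

/-- the matrix of `Ψ g` -/
abbrev mP (Ψ : GL (Fin 2) (ZMod 3) →* GL (Fin 2) (ℤ√(-2))) (g : G3) :
    Matrix (Fin 2) (Fin 2) (ℤ√(-2)) := (Ψ g : Matrix (Fin 2) (Fin 2) (ℤ√(-2)))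

theorem mP_mul (g h : G3) : mP Ψ (g * h) = mP Ψ g * mP Ψ h := by
  rw [mP, map_mul, Units.val_mul]

theorem mP_one : mP Ψ 1 = 1 := by rw [mP, map_one, Units.val_one]

include hΨ in
theorem red_mP (g : G3) (i j : Fin 2) : red (mP Ψ g i j) = g i j := by
  have h := congrArg (fun u : GL (Fin 2) (ZMod 3) => u i j) (hΨ g)
  exact h

include hΨ in
theorem red_trace (g : G3) : red (mP Ψ g).trace = tr g := by
  rw [Matrix.trace_fin_two, map_add, red_mP hΨ, red_mP hΨ]; rfl

include hΨ in
theorem red_det (g : G3) : red (mP Ψ g).det = dt g := by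
  rw [Matrix.det_fin_two, map_sub, map_mul, map_mul, red_mP hΨ, red_mP hΨ, red_mP hΨ, red_mP hΨ]
  rfl

theorem isUnit_det (g : G3) : IsUnit (mP Ψ g).det :=
  (Matrix.isUnit_iff_isUnit_det _).mp (Ψ g).isUnit

include hΨ in
theorem det_of_one {g : G3} (hg : dt g = 1) : (mP Ψ g).det = 1 := by
  rcases red_units (isUnit_det (Ψ := Ψ) g) with h | h
  · exact h
  · exfalso
    have h1 := red_det hΨ g
    rw [h, hg, map_neg, map_one] at h1
    revert h1; decide

include hΨ in
theorem det_of_neg_one {g : G3} (hg : dt g = -1) : (mP Ψ g).det = -1 := by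
  rcases red_units (isUnit_det (Ψ := Ψ) g) with h | h
  · exfalso
    have h1 := red_det hΨ g
    rw [h, hg, map_one] at h1
    revert h1; decide
  · exact h

include hΨ in
/-- `Ψ(-1) = -1` -/
theorem mP_neg_one : mP Ψ (-1) = -1 := by
  have := isDomain_zr
  have hd := det_of_one hΨ (g := -1) (by decide)
  have h1 : mP Ψ (-1) * mP Ψ (-1) = 1 := by rw [← mP_mul, neg_mul_neg, one_mul, mP_one]
  have h2 := sq_eq (mP Ψ (-1))
  rw [h1, hd, one_smul] at h2
  have h3 : (mP Ψ (-1)).trace • mP Ψ (-1) = (2 : ℤ√(-2)) • 1 := by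
    rw [eq_sub_iff_add_eq] at h2
    rw [two_smul, h2]
  have ht : (mP Ψ (-1)).trace ≠ 0 := by
    intro h
    rw [h, zero_smul] at h3
    have := congrFun (congrFun h3 0) 0
    simp only [Matrix.zero_apply, Matrix.smul_apply, Matrix.one_apply_eq, smul_eq_mul,
      mul_one] at this
    exact absurd this.symm (by decide)
  obtain ⟨h01, h10, h00⟩ := scalar_of_smul ht h3
  have h4 := congrFun (congrFun h1 0) 0
  rw [Matrix.mul_apply, Fin.sum_univ_two, h01, zero_mul, add_zero, Matrix.one_apply_eq] at h4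
  have h5 : mP Ψ (-1) 0 0 = -1 := by
    rcases mul_self_eq_one_iff.mp h4 with h | h
    · exfalso
      have := red_mP hΨ (-1) 0 0
      rw [h, map_one, negone00] at this
      revert this; decide
    · exact h
  refine Matrix.ext fun i j => ?_
  fin_cases i <;> fin_cases j
  · exact h5
  · exact h01
  · exact h10
  · exact h00.symm.trans h5

theorem Q8_cases {g : G3} (hg : g ∈ Q8) : g = 1 ∨ g = -1 ∨ g * g = -1 := by
  rw [mem_Q8] at hg
  have key : ∀ a b c d : ZMod 3, isQ a b c d →
      (a = 1 ∧ b = 0 ∧ c = 0 ∧ d = 1) ∨ (a = -1 ∧ b = 0 ∧ c = 0 ∧ d = -1) ∨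
      (a * a + b * c = -1 ∧ a * b + b * d = 0 ∧ c * a + d * c = 0 ∧ c * b + d * d = -1) := by
    decide
  rcases key _ _ _ _ hg with h | h | h
  · left; rw [G3.ext_iff']; exact h
  · right; left; rw [G3.ext_iff']; exact h
  · right; right
    rw [G3.ext_iff', mul00, mul01, mul10, mul11]
    exact h

theorem SL_cases {g : G3} (hg : g ∈ SLs) : g ∈ Q8 ∨ g * g * g = 1 ∨ g * g * g = -1 := by
  rw [mem_Q8]
  have key : ∀ a b c d : ZMod 3, a * d - b * c = 1 → isQ a b c d ∨
      (((a * a + b * c) * a + (a * b + b * d) * c = 1 ∧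
        (a * a + b * c) * b + (a * b + b * d) * d = 0 ∧
        (c * a + d * c) * a + (c * b + d * d) * c = 0 ∧
        (c * a + d * c) * b + (c * b + d * d) * d = 1) ∨
      ((a * a + b * c) * a + (a * b + b * d) * c = -1 ∧
        (a * a + b * c) * b + (a * b + b * d) * d = 0 ∧
        (c * a + d * c) * a + (c * b + d * d) * c = 0 ∧
        (c * a + d * c) * b + (c * b + d * d) * d = -1)) := by
    decide +kernel
  rcases key _ _ _ _ hg with h | h | h
  · left; exact h
  · right; left
    rw [G3.ext_iff']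
    simp only [mul00, mul01, mul10, mul11]
    exact h
  · right; right
    rw [G3.ext_iff']
    simp only [mul00, mul01, mul10, mul11]
    exact h

theorem neg_cases {g : G3} (hg : dt g = -1) : g * g = 1 ∨ g * g * (g * g) = -1 := by
  have key : ∀ a b c d : ZMod 3, a * d - b * c = -1 →
      (a * a + b * c = 1 ∧ a * b + b * d = 0 ∧ c * a + d * c = 0 ∧ c * b + d * d = 1) ∨
      ((a * a + b * c) * (a * a + b * c) + (a * b + b * d) * (c * a + d * c) = -1 ∧
       (a * a + b * c) * (a * b + b * d) + (a * b + b * d) * (c * b + d * d) = 0 ∧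
       (c * a + d * c) * (a * a + b * c) + (c * b + d * d) * (c * a + d * c) = 0 ∧
       (c * a + d * c) * (a * b + b * d) + (c * b + d * d) * (c * b + d * d) = -1) := by
    decide +kernel
  rcases key _ _ _ _ hg with h | h
  · left
    rw [G3.ext_iff', mul00, mul01, mul10, mul11]
    exact h
  · right
    rw [G3.ext_iff']
    simp only [mul00, mul01, mul10, mul11]
    exact h

include hΨ in
theorem not_scalar {g : G3} (hg : g ∉ Q8 ∨ dt g = -1) :
    ¬ (mP Ψ g 0 1 = 0 ∧ mP Ψ g 1 0 = 0 ∧ mP Ψ g 0 0 = mP Ψ g 1 1) := by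
  rintro ⟨h01, h10, h00⟩
  have e01 := red_mP hΨ g 0 1
  have e10 := red_mP hΨ g 1 0
  have e00 := red_mP hΨ g 0 0
  have e11 := red_mP hΨ g 1 1
  rw [h01, map_zero] at e01
  rw [h10, map_zero] at e10
  rw [h00, e11] at e00
  have key : ∀ a b c d : ZMod 3, 0 = b → 0 = c → d = a → (a * d - b * c) * (a * d - b * c) = 1 →
      isQ a b c d ∧ a * d - b * c ≠ -1 := by decide
  obtain ⟨h1, h2⟩ := key _ _ _ _ e01 e10 e00 (dt_mul_self g)
  rcases hg with h | h
  · exact h (mem_Q8.mpr h1)
  · exact h2 h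

include hΨ in
/-- The character of `Ψ` on the quaternion group. -/
theorem trace_Q8 {g : G3} (hg : g ∈ Q8) : (mP Ψ g).trace = ((trQ g : ℤ) : ℤ√(-2)) := by
  have := isDomain_zr
  rcases Q8_cases hg with rfl | rfl | h
  · rw [mP_one, trQ, if_pos rfl, Matrix.trace_one]
    simp
  · rw [mP_neg_one hΨ, trQ, if_neg (by decide), if_pos rfl, Matrix.trace_neg, Matrix.trace_one]
    simp
  · have hd := det_of_one hΨ (g := g) (Q8_le_SLs hg)
    have h1 : mP Ψ g * mP Ψ g = -1 := by rw [← mP_mul, h, mP_neg_one hΨ]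
    have h2 := sq_eq (mP Ψ g)
    rw [h1, hd, one_smul] at h2
    have h3 : (mP Ψ g).trace • mP Ψ g = 0 := by
      rw [eq_sub_iff_add_eq, neg_add_cancel] at h2
      exact h2.symm
    have h4 : (mP Ψ g).trace = 0 := by
      by_contra hne
      have h5 : mP Ψ g = 0 := by
        refine Matrix.ext fun i j => ?_
        have := congrFun (congrFun h3 i) j
        rw [Matrix.smul_apply, smul_eq_mul, Matrix.zero_apply] at this
        exact (mul_eq_zero.mp this).resolve_left hne
      rw [h5, Matrix.det_zero] at hd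
      exact zero_ne_one hd
    have h6 : g ≠ 1 := by
      rintro rfl
      rw [one_mul] at h
      revert h; decide
    have h7 : g ≠ -1 := by
      rintro rfl
      rw [neg_mul_neg, one_mul] at h
      revert h; decide
    rw [h4, trQ, if_neg h6, if_neg h7, Int.cast_zero]

include hΨ in
/-- Conjugation of `√-2` on the traces of `Ψ`. -/
theorem star_trace_SL {g : G3} (hg : dt g = 1) : star (mP Ψ g).trace = (mP Ψ g).trace := by
  have := isDomain_zr
  have hint : ∀ n : ℤ, star ((n : ℤ) : ℤ√(-2)) = n := fun n => by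
    refine Zsqrtd.ext ?_ ?_ <;> simp
  by_cases hQ : g ∈ Q8
  · rw [trace_Q8 hΨ hQ, hint]
  have hd := det_of_one hΨ hg
  set t := (mP Ψ g).trace with ht
  have h2 := sq_eq (mP Ψ g)
  rw [hd, one_smul, ← ht] at h2
  have h3 : mP Ψ g * mP Ψ g * mP Ψ g = (t * t - 1) • mP Ψ g - t • 1 := by
    rw [h2, sub_mul, smul_mul_assoc, h2, one_mul, smul_sub, smul_smul, sub_smul, one_smul]
    abel
  have key : ∀ e : ℤ√(-2), mP Ψ g * mP Ψ g * mP Ψ g = e • 1 → t * t = 1 := by
    intro e he
    by_contra hne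
    have hne' : t * t - 1 ≠ 0 := fun h => hne (sub_eq_zero.mp h)
    have h4 : (t * t - 1) • mP Ψ g = (e + t) • 1 := by
      rw [add_smul, ← he, h3]; abel
    exact not_scalar hΨ (Or.inl hQ) (scalar_of_smul hne' h4)
  have h5 : t * t = 1 := by
    rcases SL_cases hg with h | h | h
    · exact absurd h hQ
    · refine key 1 ?_
      rw [← mP_mul, ← mP_mul, h, mP_one, one_smul]
    · refine key (-1) ?_
      rw [← mP_mul, ← mP_mul, h, mP_neg_one hΨ, neg_smul, one_smul]
  rcases mul_self_eq_one_iff.mp h5 with h | h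
  · rw [h, star_one]
  · rw [h, star_neg, star_one]

include hΨ in
theorem star_trace_neg {g : G3} (hg : dt g = -1) : star (mP Ψ g).trace = -(mP Ψ g).trace := by
  have := isDomain_zr
  have hd := det_of_neg_one hΨ hg
  set t := (mP Ψ g).trace with ht
  have h2 := sq_eq (mP Ψ g)
  rw [hd, ← ht, neg_smul, one_smul, sub_neg_eq_add] at h2
  rcases neg_cases hg with h | h
  · have h3 : mP Ψ g * mP Ψ g = 1 := by rw [← mP_mul, h, mP_one]
    rw [h3, eq_comm, add_eq_right] at h2
    have h4 : t = 0 := by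
      by_contra hne
      have h5 : mP Ψ g = 0 := by
        refine Matrix.ext fun i j => ?_
        have := congrFun (congrFun h2 i) j
        rw [Matrix.smul_apply, smul_eq_mul, Matrix.zero_apply] at this
        exact (mul_eq_zero.mp this).resolve_left hne
      rw [h5, Matrix.det_zero] at hd
      exact absurd hd (by decide)
    rw [h4, star_zero, neg_zero]
  · have h3 : mP Ψ g * mP Ψ g * (mP Ψ g * mP Ψ g) = -1 := by
      rw [← mP_mul, ← mP_mul, h, mP_neg_one hΨ]
    have h4 : mP Ψ g * mP Ψ g * (mP Ψ g * mP Ψ g) =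
        (t * (t * t + 2)) • mP Ψ g + (t * t + 1) • 1 := by
      rw [h2, add_mul, mul_add, mul_one, smul_mul_smul_comm, h2, one_mul]
      module
    have h5 : t * t + 2 = 0 := by
      by_contra hne
      have h6 : (t * t + 2) • (t • mP Ψ g) = (t * t + 2) • ((-1 : ℤ√(-2)) • 1) := by
        have h7 : (t * (t * t + 2)) • mP Ψ g = -1 - (t * t + 1) • 1 := by
          rw [← h3, h4]; abel
        rw [smul_smul, mul_comm, h7]
        module
      have h8 : t • mP Ψ g = (-1 : ℤ√(-2)) • 1 := by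
        refine Matrix.ext fun i j => ?_
        have := congrFun (congrFun h6 i) j
        exact mul_left_cancel₀ hne this
      have ht0 : t ≠ 0 := by
        intro h0
        rw [h0, zero_smul] at h8
        have := congrFun (congrFun h8 0) 0
        simp at this
      exact not_scalar hΨ (Or.inr hg) (scalar_of_smul ht0 h8)
    have hre := congrArg Zsqrtd.re h5
    have him := congrArg Zsqrtd.im h5
    simp only [Zsqrtd.re_add, Zsqrtd.im_add, Zsqrtd.re_mul, Zsqrtd.im_mul, Zsqrtd.re_zero,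
      Zsqrtd.im_zero, Zsqrtd.re_ofNat, Zsqrtd.im_ofNat] at hre him
    have h9 : t.re = 0 := by
      have h10 : t.re * t.im = 0 := by linarith
      rcases mul_eq_zero.mp h10 with h | h
      · exact h
      · rw [h] at hre
        nlinarith [mul_self_nonneg t.re]
    refine Zsqrtd.ext ?_ ?_
    · simp [h9]
    · simp

end Psi

end Fermat.Agent.LTG.Cmp
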