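import Fermat.Agent.LT.Geo.EThreeB
import Fermat.Agent.LT.Geo.Inert
import Fermat.Agent.LT.Geo.Match

/-!
# LTG: bad totally ramified places with residue field `F₄` (statements)

`v` a place of `K`, totally ramified in the cyclic cubic extension `L`, `q_v = 4`, `w` above `v`.

* `RBd` : elements `d 0, d 1, d 2` of `L` with `σ (d j) = ζ_j d j` and valuation `j`;
* `RBMatch` : the description of `{y ∈ GL₂(L) | y⁻¹ δ σ(y) ∈ HB w (3m)}`: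
  `y = t z` or `y = t z diag(d_j, 1) un(b)` (`j = 1, 2`), `z ∈ GL₂(K)`.
(helper58)
-/

set_option autoImplicit false
set_option linter.unusedSectionVars false

open NumberField IsDedekindDomain Matrix
open Fermat.Agent.LT.D

namespace Fermat.LT

section

variable {K L : Type} [Field K] [NumberField K] [Field L] [NumberField L] [Algebra K L]

/-- the three twisting elements at a totally ramified place -/
structure RBd (C : Cub K L) (w : Pl L) (d : Fin 3 → Lˣ) : Prop where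
  zero : d 0 = 1
  val : ∀ j, av w (d j : L) = (qv w)⁻¹ ^ (j : ℕ)
  tw : ∀ j, ∃ ζ : Kˣ, (ζ : K) ^ 3 = 1 ∧ C.σ (d j : L) = algebraMap K L ζ * d j ∧
    (j ≠ 0 → av w (algebraMap K L ζ - 1) = 1)

/-- **matching at a bad ramified place** -/
structure RBMatch (C : Cub K L) (v : Pl K) (w : Pl L) (m : ℕ) (γ : G2 K) (δ t : G2 L)
    (d : Fin 3 → Lˣ) : Prop where
  mem_Z : t ∈ Cub.Z (L := L) γ
  /-- `j = 0` -/
  fwdB : ∀ z : G2 K, (t * Cub.Inc z)⁻¹ * δ * C.S (t * Cub.Inc z) ∈ HB w (3 * m) ↔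
    (z⁻¹ * γ * z ∈ HB v m ∧ av v (td γ) < 1)
  fwdT : ∀ z : G2 K, (t * Cub.Inc z)⁻¹ * δ * C.S (t * Cub.Inc z) ∈ HT w (3 * m) ↔
    (z⁻¹ * γ * z ∈ HT v m ∧ av v (td γ) < 1)
  /-- `j = 1, 2` -/
  fwdj : ∀ j : Fin 3, j ≠ 0 → ∀ z : G2 K, z⁻¹ * γ * z ∈ HT v m →
    av v (td γ) < 1 → ∀ b : L, av w b ≤ 1 →
    (t * Cub.Inc z * dg (d j) * un b)⁻¹ * δ * C.S (t * Cub.Inc z * dg (d j) * un b) ∈
        HB w (3 * m) ∧
    ((t * Cub.Inc z * dg (d j) * un b)⁻¹ * δ * C.S (t * Cub.Inc z * dg (d j) * un b) ∈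
        HT w (3 * m) ↔ av w b < 1)
  /-- surjectivity -/
  bwd : ∀ y : G2 L, y⁻¹ * δ * C.S y ∈ HB w (3 * m) →
    (∃ z : G2 K, z⁻¹ * γ * z ∈ HB v m ∧ av v (td γ) < 1 ∧
      (t * Cub.Inc z)⁻¹ * y ∈ HT w (3 * m)) ∨
    (∃ j : Fin 3, j ≠ 0 ∧ ∃ z : G2 K, z⁻¹ * γ * z ∈ HT v m ∧
      av v (td γ) < 1 ∧ (t * Cub.Inc z * dg (d j))⁻¹ * y ∈ HB w (3 * m))

end

end Fermat.LT
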